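import Fermat.Agent.ClassField.Idele.PlaceIdeles

/-!
# The idele of an ideal and restriction of ideles to sets of primes
-/

set_option autoImplicit false

noncomputable section

open IntermediateField IsDedekindDomain
open scoped NumberField

namespace Fermat.Agent.ClassField.Idele.SecondIneq

local notation "Qb" => AlgebraicClosure ℚ
local notation "Γ" => (AlgebraicClosure ℚ ≃ₐ[ℚ] AlgebraicClosure ℚ)

open Classical in
/-- The components in a set of primes, and one elsewhere. -/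
def cutFun (P : Set Nat.Primes) (f : Raw) : Raw := fun ℓ ι => if ℓ ∈ P then f ℓ ι else 1

lemma cutFun_of_mem {P : Set Nat.Primes} (f : Raw) {ℓ : Nat.Primes} (h : ℓ ∈ P) (ι : Emb ℓ) :
    cutFun P f ℓ ι = f ℓ ι := by
  simp [cutFun, h]

lemma cutFun_of_notMem {P : Set Nat.Primes} (f : Raw) {ℓ : Nat.Primes} (h : ℓ ∉ P) (ι : Emb ℓ) :
    cutFun P f ℓ ι = 1 := by
  simp [cutFun, h]

lemma cutFun_mem (P : Set Nat.Primes) (f : IdeleGroup) : cutFun P f ∈ ideles := by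
  obtain ⟨he, ⟨K, hK, hfix⟩, T, hT⟩ := f.2
  refine ⟨fun ℓ τ ι => ?_, ⟨K, hK, fun σ hσ => Raw.ext fun ℓ ι => ?_⟩, T, fun ℓ hℓ ι => ?_⟩
  · by_cases h : ℓ ∈ P
    · rw [cutFun_of_mem _ h, cutFun_of_mem _ h, he ℓ τ ι]
    · rw [cutFun_of_notMem _ h, cutFun_of_notMem _ h]; simp
  · rw [Raw.smul_apply]
    by_cases h : ℓ ∈ P
    · rw [cutFun_of_mem _ h, cutFun_of_mem _ h]
      exact congrArg (fun g : Raw => g ℓ ι) (hfix σ hσ)
    · rw [cutFun_of_notMem _ h, cutFun_of_notMem _ h]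
  · by_cases h : ℓ ∈ P
    · rw [cutFun_of_mem _ h]; exact hT ℓ hℓ ι
    · rw [cutFun_of_notMem _ h]; simp

/-- An idele cut down to a set of primes. -/
def cut (P : Set Nat.Primes) (f : IdeleGroup) : IdeleGroup := ⟨cutFun P f, cutFun_mem P f⟩

lemma cut_of_mem {P : Set Nat.Primes} (f : IdeleGroup) {ℓ : Nat.Primes} (h : ℓ ∈ P) (ι : Emb ℓ) :
    ((cut P f : IdeleGroup) : Raw) ℓ ι = (f : Raw) ℓ ι := cutFun_of_mem _ h ι

lemma cut_of_notMem {P : Set Nat.Primes} (f : IdeleGroup) {ℓ : Nat.Primes} (h : ℓ ∉ P)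
    (ι : Emb ℓ) : ((cut P f : IdeleGroup) : Raw) ℓ ι = 1 := cutFun_of_notMem _ h ι

lemma cut_mul (P : Set Nat.Primes) (f g : IdeleGroup) : cut P (f * g) = cut P f * cut P g := by
  refine Subtype.ext (Raw.ext fun ℓ ι => ?_)
  rw [Subgroup.coe_mul, Raw.mul_apply]
  by_cases h : ℓ ∈ P
  · rw [cut_of_mem _ h, cut_of_mem _ h, cut_of_mem _ h]; rfl
  · rw [cut_of_notMem _ h, cut_of_notMem _ h, cut_of_notMem _ h, one_mul]

lemma cut_mul_cut_compl (P : Set Nat.Primes) (f : IdeleGroup) : cut P f * cut Pᶜ f = f := by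
  refine Subtype.ext (Raw.ext fun ℓ ι => ?_)
  rw [Subgroup.coe_mul, Raw.mul_apply]
  by_cases h : ℓ ∈ P
  · rw [cut_of_mem _ h, cut_of_notMem _ (show ℓ ∉ Pᶜ from fun h' => h' h), mul_one]
  · rw [cut_of_notMem _ h, cut_of_mem _ (show ℓ ∈ Pᶜ from h), one_mul]

lemma cut_mem_idelesOf {K : IntermediateField ℚ Qb} (P : Set Nat.Primes) {f : IdeleGroup}
    (hf : f ∈ idelesOf K) : cut P f ∈ idelesOf K := by
  intro σ hσ
  refine Subtype.ext (Raw.ext fun ℓ ι => ?_)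
  rw [coe_smul, Raw.smul_apply]
  by_cases h : ℓ ∈ P
  · rw [cut_of_mem _ h, cut_of_mem _ h]
    exact congrArg (fun g : IdeleGroup => (g : Raw) ℓ ι) (hf σ hσ)
  · rw [cut_of_notMem _ h, cut_of_notMem _ h]

lemma principal_mem_idelesOf {K : IntermediateField ℚ Qb} {x : Qbˣ} (hx : (x : Qb) ∈ K) :
    principal x ∈ idelesOf K := fun σ hσ => by
  rw [smul_principal]
  exact congrArg principal (Units.ext ((IntermediateField.mem_fixingSubgroup_iff _ _).mp hσ _ hx))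

variable {K : IntermediateField ℚ Qb} [FiniteDimensional ℚ K]

/-- Elements of an ideal with maximal absolute value at an embedding. -/
def maxSet {ℓ : Nat.Primes} (ι : Emb ℓ) (I : Ideal (𝓞 K)) : Set (𝓞 K) :=
  {x | x ∈ I ∧ ∀ y ∈ I, ‖embInt ι K y‖ ≤ ‖embInt ι K x‖}

lemma maxSet_nonempty {ℓ : Nat.Primes} (ι : Emb ℓ) (I : Ideal (𝓞 K)) :
    (maxSet ι I).Nonempty := by
  classical
  obtain ⟨s, hs⟩ := IsNoetherian.noetherian I
  obtain ⟨x, hx, hxmax⟩ := (insert (0 : 𝓞 K) s).exists_max_image (fun y => ‖embInt ι K y‖)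
    ⟨0, Finset.mem_insert_self 0 s⟩
  refine ⟨x, ?_, fun y hy => ?_⟩
  · rcases Finset.mem_insert.mp hx with rfl | h
    · exact zero_mem I
    · rw [← hs]; exact Submodule.subset_span h
  · rw [← hs] at hy
    induction hy using Submodule.span_induction with
    | mem z hz => exact hxmax z (Finset.mem_insert_of_mem hz)
    | zero => simp
    | add a b _ _ ha hb =>
      rw [map_add]
      exact (IsUltrametricDist.norm_add_le_max _ _).trans (max_le ha hb)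
    | smul c a _ ha =>
      rw [smul_eq_mul, map_mul, norm_mul]
      exact (mul_le_of_le_one_left (norm_nonneg _) (norm_embInt_le_one ι K c)).trans ha

/-- A chosen element of maximal absolute value. -/
def pick {ℓ : Nat.Primes} (ι : Emb ℓ) (I : Ideal (𝓞 K)) : 𝓞 K :=
  Classical.epsilon fun x => x ∈ maxSet ι I

lemma pick_mem {ℓ : Nat.Primes} (ι : Emb ℓ) (I : Ideal (𝓞 K)) : pick ι I ∈ maxSet ι I :=
  Classical.epsilon_spec (maxSet_nonempty ι I)

lemma pick_congr {ℓ : Nat.Primes} {ι ι' : Emb ℓ}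
    (h : ∀ y : 𝓞 K, ‖embInt ι K y‖ = ‖embInt ι' K y‖) (I : Ideal (𝓞 K)) :
    pick ι I = pick ι' I := by
  have : maxSet ι I = maxSet ι' I := by ext x; simp [maxSet, h]
  simp only [pick, this]

/-- The absolute value of an ideal at an embedding. -/
def idealAbs {ℓ : Nat.Primes} (ι : Emb ℓ) (I : Ideal (𝓞 K)) : ℝ := ‖embInt ι K (pick ι I)‖

lemma norm_le_idealAbs {ℓ : Nat.Primes} (ι : Emb ℓ) {I : Ideal (𝓞 K)} {y : 𝓞 K} (hy : y ∈ I) :
    ‖embInt ι K y‖ ≤ idealAbs ι I := (pick_mem ι I).2 y hy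

lemma idealAbs_nonneg {ℓ : Nat.Primes} (ι : Emb ℓ) (I : Ideal (𝓞 K)) : 0 ≤ idealAbs ι I :=
  norm_nonneg _

lemma idealAbs_pos {ℓ : Nat.Primes} (ι : Emb ℓ) {I : Ideal (𝓞 K)} (hI : I ≠ ⊥) :
    0 < idealAbs ι I := by
  obtain ⟨y, hy, hy0⟩ := Submodule.exists_mem_ne_zero_of_ne_bot hI
  exact lt_of_lt_of_le (norm_pos_iff.mpr fun h => hy0 ((embInt_eq_zero_iff ι y).mp h))
    (norm_le_idealAbs ι hy)

lemma idealAbs_le_one {ℓ : Nat.Primes} (ι : Emb ℓ) (I : Ideal (𝓞 K)) : idealAbs ι I ≤ 1 :=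
  norm_embInt_le_one ι K _

lemma idealAbs_mul {ℓ : Nat.Primes} (ι : Emb ℓ) (I J : Ideal (𝓞 K)) :
    idealAbs ι (I * J) = idealAbs ι I * idealAbs ι J := by
  refine le_antisymm ?_ ?_
  · suffices h : ∀ z ∈ I * J, ‖embInt ι K z‖ ≤ idealAbs ι I * idealAbs ι J from
      h _ (pick_mem ι (I * J)).1
    intro z hz
    induction hz using Submodule.mul_induction_on' with
    | mem_mul_mem a ha b hb =>
      rw [map_mul, norm_mul]
      exact mul_le_mul (norm_le_idealAbs ι ha) (norm_le_idealAbs ι hb) (norm_nonneg _)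
        (idealAbs_nonneg ι I)
    | add a _ b _ ha hb =>
      rw [map_add]
      exact (IsUltrametricDist.norm_add_le_max _ _).trans (max_le ha hb)
  · rw [idealAbs, idealAbs, ← norm_mul, ← map_mul]
    exact norm_le_idealAbs ι (Ideal.mul_mem_mul (pick_mem ι I).1 (pick_mem ι J).1)

lemma idealAbs_span_singleton {ℓ : Nat.Primes} (ι : Emb ℓ) (x : 𝓞 K) :
    idealAbs ι (Ideal.span {x}) = ‖embInt ι K x‖ := by
  refine le_antisymm ?_ (norm_le_idealAbs ι (Ideal.mem_span_singleton_self x))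
  obtain ⟨a, ha⟩ := Ideal.mem_span_singleton'.mp (pick_mem ι (Ideal.span {x})).1
  rw [idealAbs, ← ha, map_mul, norm_mul]
  exact mul_le_of_le_one_left (norm_nonneg _) (norm_embInt_le_one ι K a)

lemma idealAbs_top {ℓ : Nat.Primes} (ι : Emb ℓ) : idealAbs ι (⊤ : Ideal (𝓞 K)) = 1 := by
  rw [← Ideal.span_singleton_one, idealAbs_span_singleton, map_one, norm_one]

lemma idealAbs_pow {ℓ : Nat.Primes} (ι : Emb ℓ) (I : Ideal (𝓞 K)) (n : ℕ) :
    idealAbs ι (I ^ n) = idealAbs ι I ^ n := by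
  induction n with
  | zero => rw [pow_zero, pow_zero, Ideal.one_eq_top, idealAbs_top]
  | succ n ih => rw [pow_succ, idealAbs_mul, ih, pow_succ]

open Classical in
/-- The underlying family of the idele of an ideal. -/
def idealFun (T : Set Nat.Primes) (I : Ideal (𝓞 K)) : Raw := fun _ℓ ι =>
  if h : _ℓ ∉ T ∧ embInt ι K (pick ι I) ≠ 0 then Units.mk0 _ h.2 else 1

lemma idealFun_apply {T : Set Nat.Primes} {I : Ideal (𝓞 K)} (hI : I ≠ ⊥) {ℓ : Nat.Primes}
    (hℓ : ℓ ∉ T) (ι : Emb ℓ) :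
    (idealFun T I ℓ ι : PadicAlgCl (ℓ : ℕ)) = embInt ι K (pick ι I) := by
  have hne : embInt ι K (pick ι I) ≠ 0 := norm_ne_zero_iff.mp (idealAbs_pos ι hI).ne'
  rw [idealFun, dif_pos ⟨hℓ, hne⟩, Units.val_mk0]

lemma idealFun_of_mem {T : Set Nat.Primes} (I : Ideal (𝓞 K)) {ℓ : Nat.Primes}
    (hℓ : ℓ ∈ T) (ι : Emb ℓ) : idealFun T I ℓ ι = 1 := by
  rw [idealFun, dif_neg]
  exact fun h => h.1 hℓ

lemma idealFun_bot (T : Set Nat.Primes) : idealFun T (⊥ : Ideal (𝓞 K)) = 1 := by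
  refine Raw.ext fun ℓ ι => ?_
  rw [idealFun, dif_neg]
  · rfl
  · rintro ⟨-, h⟩
    rw [(Submodule.mem_bot _).mp (pick_mem ι (⊥ : Ideal (𝓞 K))).1, map_zero] at h
    exact h rfl

lemma norm_embInt_localComp {ℓ : Nat.Primes} (τ : LocalGal ℓ) (ι : Emb ℓ) (y : 𝓞 K) :
    ‖embInt (localComp τ ι) K y‖ = ‖embInt ι K y‖ := by
  rw [embInt_apply, embInt_apply, localComp_apply]
  exact (spectralNorm_eq_of_equiv τ _).symm

lemma embInt_globalComp {ℓ : Nat.Primes} (ι : Emb ℓ) {σ : Γ} (hσ : σ ∈ K.fixingSubgroup)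
    (y : 𝓞 K) : embInt (globalComp ι σ) K y = embInt ι K y := by
  rw [embInt_apply, embInt_apply, globalComp_apply,
    (IntermediateField.mem_fixingSubgroup_iff _ _).mp hσ _ (y : K).2]

lemma smul_idealFun (T : Set Nat.Primes) (I : Ideal (𝓞 K)) {σ : Γ} (hσ : σ ∈ K.fixingSubgroup) :
    σ • idealFun T I = idealFun T I := by
  refine Raw.ext fun ℓ ι => Units.ext ?_
  rcases eq_or_ne I ⊥ with rfl | hI
  · simp [idealFun_bot]
  rw [Raw.smul_apply]
  by_cases hℓ : ℓ ∈ T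
  · simp [idealFun_of_mem I hℓ]
  · rw [idealFun_apply hI hℓ, idealFun_apply hI hℓ, embInt_globalComp ι hσ,
      pick_congr (ι := globalComp ι σ) (ι' := ι) (fun y => by rw [embInt_globalComp ι hσ y]) I]

lemma idealFun_mem (T : Set Nat.Primes) (I : Ideal (𝓞 K)) : idealFun T I ∈ ideles := by
  rcases eq_or_ne I ⊥ with rfl | hI
  · rw [idealFun_bot]; exact one_mem _
  refine ⟨fun ℓ τ ι => ?_, ⟨K, inferInstance, fun σ hσ => smul_idealFun T I hσ⟩, ?_⟩
  · by_cases hℓ : ℓ ∈ T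
    · simp [idealFun_of_mem I hℓ]
    · rw [idealFun_apply hI hℓ, idealFun_apply hI hℓ, pick_congr (norm_embInt_localComp τ ι) I]
      rfl
  · obtain ⟨y, hy, hy0⟩ := Submodule.exists_mem_ne_zero_of_ne_bot hI
    obtain ⟨A, hA⟩ := exists_primes_norm_eq_one (Units.mk0 ((y : K) : Qb) (fun h => hy0
      (NumberField.RingOfIntegers.coe_eq_zero_iff.mp (Subtype.ext h))))
    refine ⟨A, fun ℓ hℓ ι => ?_⟩
    by_cases hT : ℓ ∈ T
    · simp [idealFun_of_mem I hT]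
    · rw [idealFun_apply hI hT]
      refine le_antisymm (idealAbs_le_one ι I) ?_
      have := norm_le_idealAbs ι hy
      rw [embInt_apply] at this
      rw [show ‖ι ((y : K) : Qb)‖ = 1 from hA ℓ hℓ ι] at this
      exact this

/-- The idele of an ideal, trivial on `T`. -/
def idealIdele (T : Set Nat.Primes) (I : Ideal (𝓞 K)) : IdeleGroup :=
  ⟨idealFun T I, idealFun_mem T I⟩

lemma idealIdele_mem (T : Set Nat.Primes) (I : Ideal (𝓞 K)) : idealIdele T I ∈ idelesOf K :=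
  fun _σ hσ => Subtype.ext (smul_idealFun T I hσ)

lemma idealIdele_of_mem {T : Set Nat.Primes} (I : Ideal (𝓞 K)) {ℓ : Nat.Primes}
    (hℓ : ℓ ∈ T) (ι : Emb ℓ) : ((idealIdele T I : IdeleGroup) : Raw) ℓ ι = 1 :=
  idealFun_of_mem I hℓ ι

lemma norm_idealIdele {T : Set Nat.Primes} {I : Ideal (𝓞 K)} (hI : I ≠ ⊥) {ℓ : Nat.Primes}
    (hℓ : ℓ ∉ T) (ι : Emb ℓ) :
    ‖(((idealIdele T I : IdeleGroup) : Raw) ℓ ι : PadicAlgCl (ℓ : ℕ))‖ = idealAbs ι I := by
  show ‖(idealFun T I ℓ ι : PadicAlgCl (ℓ : ℕ))‖ = _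
  rw [idealFun_apply hI hℓ]; rfl

/-- An element of `K` of absolute value at most one at every embedding is integral. -/
lemma exists_eq_coe_of_norm_le_one {x : K}
    (h : ∀ (ℓ : Nat.Primes) (ι : Emb ℓ), ‖ι (x : Qb)‖ ≤ 1) : ∃ y : 𝓞 K, (y : K) = x := by
  rcases eq_or_ne x 0 with rfl | hx
  · exact ⟨0, rfl⟩
  refine HeightOneSpectrum.mem_integers_of_valuation_le_one K x fun v => ?_
  obtain ⟨q, hq, hqv⟩ : ∃ q : ℕ, q.Prime ∧ (q : 𝓞 K) ∈ v.asIdeal := by
    have h0 : Ideal.absNorm v.asIdeal ≠ 0 := by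
      rw [Ne, Ideal.absNorm_eq_zero_iff]; exact v.ne_bot
    have hmem : (((Ideal.absNorm v.asIdeal).primeFactorsList.map (Nat.cast : ℕ → 𝓞 K)).prod) ∈
        v.asIdeal := by
      rw [← Nat.cast_list_prod, Nat.prod_primeFactorsList h0]
      exact Ideal.absNorm_mem _
    rw [← Multiset.prod_coe] at hmem
    obtain ⟨a, ha, hav⟩ := (v.isPrime.multiset_prod_mem_iff_exists_mem _).mp hmem
    obtain ⟨q, hq, rfl⟩ := List.mem_map.mp ha
    exact ⟨q, Nat.prime_of_mem_primeFactorsList hq, hav⟩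
  obtain ⟨ι, hι⟩ := exists_placeAt_eq (ℓ := ⟨q, hq⟩) K v hqv
  have h1 := h _ ι
  rw [norm_emb_eq_zpow ι hx, hι] at h1
  have hord : 0 ≤ ordK v x := by
    by_contra hneg
    rw [not_le] at hneg
    obtain ⟨n, hn⟩ := Int.eq_negSucc_of_lt_zero hneg
    rw [hn, zpow_negSucc, inv_le_one_iff₀] at h1
    have hpos := norm_unifK_pos ι (K := K)
    rw [hι] at hpos
    have hlt := norm_unifK_lt_one ι (K := K)
    rw [hι] at hlt
    rcases h1 with h1 | h1
    · exact absurd h1 (not_le.mpr (pow_pos hpos _))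
    · exact absurd h1 (not_le.mpr (pow_lt_one₀ hpos.le hlt n.succ_ne_zero))
  rw [ordK] at hord
  have hv0 : v.valuation K x ≠ 0 := (Valuation.ne_zero_iff _).mpr hx
  rw [← WithZero.exp_log hv0, ← WithZero.exp_zero, WithZero.exp_le_exp]
  omega

end Fermat.Agent.ClassField.Idele.SecondIneq
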