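import Fermat.Agent.ClassField.Idele.CosetProd
import Fermat.Agent.ClassField.Idele.Local

/-!
# Units away from the ramification are norms
-/

set_option autoImplicit false

noncomputable section

open IntermediateField

namespace Fermat.Agent.ClassField.Idele.SecondIneq

local notation "Qb" => AlgebraicClosure ℚ
local notation "Γ" => (AlgebraicClosure ℚ ≃ₐ[ℚ] AlgebraicClosure ℚ)

/-- A component of the relative norm. -/
lemma relNorm_component {k L : IntermediateField ℚ Qb} [FiniteDimensional ℚ L] (f : IdeleGroup)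
    (ℓ : Nat.Primes) (ι : Emb ℓ) :
    ((relNorm k L f : IdeleGroup) : Raw) ℓ ι =
      ∏ᶠ q : k.fixingSubgroup ⧸ L.fixingSubgroup.subgroupOf k.fixingSubgroup,
        (f : Raw) ℓ (globalComp ι ((q.out : k.fixingSubgroup) : Γ)) := by
  let ev : IdeleGroup →* (PadicAlgCl (ℓ : ℕ))ˣ :=
    { toFun := fun f => (f : Raw) ℓ ι, map_one' := rfl, map_mul' := fun _ _ => rfl }
  show ev (relNorm k L f) = _
  rw [relNorm, cosetProd, MonoidHom.map_finprod _ (Set.toFinite _)]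
  rfl

variable {p : ℕ} [Fact p.Prime] {k L : IntermediateField ℚ Qb}

/-- Units away from a set containing the ramified primes are norms. -/
theorem exists_relNorm_eq_of_mem_unitsAway (hkL : IsPrimeCyclic p k L) (T : Set Nat.Primes)
    (hT : ∀ ℓ ∉ T, IsUnramifiedAt k L ℓ) {f : IdeleGroup} (hf : f ∈ idelesOf k)
    (hu : f ∈ unitsAway T) : ∃ g ∈ idelesOf L, relNorm k L g = f := by
  classical
  haveI := hkL.finite
  have hloc : ∀ ℓ : Nat.Primes, ∃ g ∈ idelesOf L,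
      (∀ ι : Emb ℓ, ‖((g : Raw) ℓ ι : PadicAlgCl (ℓ : ℕ))‖ = 1) ∧
      ∀ ι : Emb ℓ, ((relNorm k L g : IdeleGroup) : Raw) ℓ ι = (f : Raw) ℓ ι := by
    intro ℓ
    by_cases h : ℓ ∈ T
    · refine ⟨1, one_mem _, fun ι => by simp, fun ι => ?_⟩
      rw [relNorm, cosetProd_one, hu.1 ℓ h ι]; rfl
    · obtain ⟨g, hg, -, hn, he⟩ := exists_relNorm_eq_of_unit hkL (hT ℓ h) hf (hu.2 ℓ h)
      exact ⟨g, hg, hn, he⟩
  choose g hg hgn hge using hloc
  let G : Raw := fun ℓ ι => (g ℓ : Raw) ℓ ι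
  have hGfix : ∀ σ ∈ L.fixingSubgroup, σ • G = G := fun σ hσ => Raw.ext fun ℓ ι =>
    congrArg (fun x : IdeleGroup => (x : Raw) ℓ ι) (hg ℓ σ hσ)
  have hG : G ∈ ideles := ⟨fun ℓ τ ι => (g ℓ).2.1 ℓ τ ι, ⟨L, inferInstance, hGfix⟩,
    ⟨∅, fun ℓ _ ι => hgn ℓ ι⟩⟩
  refine ⟨⟨G, hG⟩, fun σ hσ => Subtype.ext (hGfix σ hσ), Subtype.ext (Raw.ext fun ℓ ι => ?_)⟩
  rw [relNorm_component, ← hge ℓ ι, relNorm_component]

end Fermat.Agent.ClassField.Idele.SecondIneq
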