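import Fermat.Agent.ClassField.Idele.SecondIneq.IdealIdele
import Fermat.Agent.ClassField.Idele.CosetProd
import Mathlib.RingTheory.Ideal.Norm.RelNorm

/-!
# Degree one primes of `L` and norms of ideles
-/

set_option autoImplicit false

noncomputable section

open IntermediateField IsDedekindDomain
open scoped NumberField

namespace Fermat.Agent.ClassField.Idele.SecondIneq

local notation "Qb" => AlgebraicClosure ℚ
local notation "Γ" => (AlgebraicClosure ℚ ≃ₐ[ℚ] AlgebraicClosure ℚ)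

variable {k L : IntermediateField ℚ Qb}

/-- The inclusion of rings of integers. -/
def inclInt (hle : k ≤ L) : 𝓞 k →+* 𝓞 L :=
  NumberField.RingOfIntegers.mapRingHom (IntermediateField.inclusion hle).toRingHom

lemma coe_inclInt (hle : k ≤ L) (y : 𝓞 k) : (((inclInt hle y : 𝓞 L) : L) : Qb) = ((y : k) : Qb) :=
  rfl

variable {p : ℕ} (hkL : IsPrimeCyclic p k L)
include hkL

lemma natCard_quotient : Nat.card (k.fixingSubgroup ⧸ L.fixingSubgroup.subgroupOf k.fixingSubgroup)
    = p := hkL.index_eq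

/-- Cosets of the levels are the embeddings of `L` over `k`. -/
lemma exists_equiv_algHom :
    letI : Algebra k L := (IntermediateField.inclusion hkL.le).toRingHom.toAlgebra
    ∃ e : (k.fixingSubgroup ⧸ L.fixingSubgroup.subgroupOf k.fixingSubgroup) ≃ (L →ₐ[k] Qb),
      ∀ q (x : L), e q x = ((q.out : k.fixingSubgroup) : Γ) (x : Qb) := by
  letI : Algebra k L := (IntermediateField.inclusion hkL.le).toRingHom.toAlgebra
  haveI : IsScalarTower k L Qb := IsScalarTower.of_algebraMap_eq fun _ => rfl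
  haveI : IsGalois k Qb := IsGalois.tower_top_of_isGalois ℚ k Qb
  let F : (k.fixingSubgroup ⧸ L.fixingSubgroup.subgroupOf k.fixingSubgroup) → (L →ₐ[k] Qb) :=
    fun q =>
      { (((q.out : k.fixingSubgroup) : Γ).toAlgHom.toRingHom.comp (algebraMap L Qb)) with
        commutes' := fun c => (IntermediateField.mem_fixingSubgroup_iff _ _).mp q.out.2 _ c.2 }
  have hF : ∀ q (x : L), F q x = ((q.out : k.fixingSubgroup) : Γ) (x : Qb) := fun _ _ => rfl
  refine ⟨Equiv.ofBijective F ⟨fun q q' h => ?_, fun φ => ?_⟩, fun q x => hF q x⟩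
  · rw [← q.out_eq', ← q'.out_eq', QuotientGroup.eq, Subgroup.mem_subgroupOf,
      IntermediateField.mem_fixingSubgroup_iff]
    intro x hx
    have hval := DFunLike.congr_fun h ⟨x, hx⟩
    rw [hF, hF] at hval
    show ((q.out : k.fixingSubgroup) : Γ).symm (((q'.out : k.fixingSubgroup) : Γ) x) = x
    rw [← hval, AlgEquiv.symm_apply_apply]
  · let ψ : Qb →ₐ[k] Qb := φ.liftNormal Qb
    have hψ : Function.Bijective ψ := Algebra.IsAlgebraic.algHom_bijective ψ
    let σ : Γ := (AlgEquiv.ofBijective ψ hψ).restrictScalars ℚ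
    have hσ : σ ∈ k.fixingSubgroup := (IntermediateField.mem_fixingSubgroup_iff _ _).mpr fun x hx =>
      ψ.commutes ⟨x, hx⟩
    refine ⟨QuotientGroup.mk ⟨σ, hσ⟩, AlgHom.ext fun x => ?_⟩
    rw [hF]
    have hmk : ((QuotientGroup.mk ⟨σ, hσ⟩ :
        k.fixingSubgroup ⧸ L.fixingSubgroup.subgroupOf k.fixingSubgroup).out)⁻¹ * ⟨σ, hσ⟩ ∈
          L.fixingSubgroup.subgroupOf k.fixingSubgroup :=
      QuotientGroup.eq.mp (QuotientGroup.out_eq' _)
    rw [Subgroup.mem_subgroupOf, IntermediateField.mem_fixingSubgroup_iff] at hmk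
    have h2 := hmk x x.2
    set τ := (QuotientGroup.mk ⟨σ, hσ⟩ :
      k.fixingSubgroup ⧸ L.fixingSubgroup.subgroupOf k.fixingSubgroup).out
    change (τ : Γ).symm (σ (x : Qb)) = x at h2
    rw [AlgEquiv.symm_apply_eq] at h2
    rw [← h2]
    exact φ.liftNormal_commutes Qb x

lemma finrank_eq_degree :
    letI : Algebra k L := (IntermediateField.inclusion hkL.le).toRingHom.toAlgebra
    Module.finrank k L = p := by
  letI : Algebra k L := (IntermediateField.inclusion hkL.le).toRingHom.toAlgebra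
  haveI := hkL.finite
  haveI : IsScalarTower ℚ k L := IsScalarTower.of_algebraMap_eq fun _ => rfl
  haveI : FiniteDimensional k L := FiniteDimensional.right ℚ k L
  obtain ⟨e, -⟩ := exists_equiv_algHom hkL
  rw [← AlgHom.card k L Qb, ← Nat.card_eq_fintype_card, ← Nat.card_congr e]
  exact natCard_quotient hkL

variable [FiniteDimensional ℚ k] [FiniteDimensional ℚ L]

/-- Degree one primes: the prime below has the same norm and its idele is a norm up to units. -/
theorem exists_norm_idele_of_absNorm_prime (T : Set Nat.Primes) {W : Ideal (𝓞 L)}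
    (hW : (Ideal.absNorm W).Prime) :
    Ideal.absNorm (W.comap (inclInt hkL.le)) = Ideal.absNorm W ∧
      ∃ g ∈ idelesOf L, (∀ ℓ ∈ T, ∀ ι, ((relNorm k L g : IdeleGroup) : Raw) ℓ ι = 1) ∧
        ∀ ℓ ∉ T, ∀ ι, ‖(((relNorm k L g : IdeleGroup) : Raw) ℓ ι : PadicAlgCl (ℓ : ℕ))‖ =
          idealAbs ι (W.comap (inclInt hkL.le)) := by
  classical
  letI : Algebra k L := (IntermediateField.inclusion hkL.le).toRingHom.toAlgebra
  haveI : IsScalarTower ℚ k L := IsScalarTower.of_algebraMap_eq fun _ => rfl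
  haveI : IsScalarTower k L Qb := IsScalarTower.of_algebraMap_eq fun _ => rfl
  haveI : FiniteDimensional k L := FiniteDimensional.right ℚ k L
  haveI : IsGalois k Qb := IsGalois.tower_top_of_isGalois ℚ k Qb
  have halg : algebraMap (𝓞 k) (𝓞 L) = inclInt hkL.le := RingHom.ext fun _ => rfl
  set P := W.comap (inclInt hkL.le) with hPdef
  have hW0 : W ≠ ⊥ := by
    rintro rfl; rw [Ideal.absNorm_bot] at hW; exact Nat.not_prime_zero hW
  have hWp : W.IsPrime := Ideal.isPrime_of_irreducible_absNorm hW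
  have hrel : Ideal.absNorm (Ideal.relNorm (𝓞 k) W) = Ideal.absNorm W := Ideal.absNorm_relNorm _ _ W
  have hNprime : (Ideal.relNorm (𝓞 k) W).IsPrime :=
    Ideal.isPrime_of_irreducible_absNorm (by rw [hrel]; exact hW)
  have hN0 : Ideal.relNorm (𝓞 k) W ≠ ⊥ := by rw [Ne, Ideal.relNorm_eq_bot_iff]; exact hW0
  have hP : Ideal.relNorm (𝓞 k) W = P := by
    refine (hNprime.isMaximal hN0).eq_of_le (Ideal.comap_ne_top _ hWp.ne_top) ?_
    rw [hPdef, ← halg]
    exact Ideal.relNorm_le_comap _ W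
  refine ⟨by rw [← hP, hrel], idealIdele T W, idealIdele_mem T W, ?_⟩
  haveI : Fintype (k.fixingSubgroup ⧸ L.fixingSubgroup.subgroupOf k.fixingSubgroup) :=
    Fintype.ofFinite _
  have hprod : ∀ (ℓ : Nat.Primes) (ι : Emb ℓ),
      ((relNorm k L (idealIdele T W) : IdeleGroup) : Raw) ℓ ι =
        ∏ q : k.fixingSubgroup ⧸ L.fixingSubgroup.subgroupOf k.fixingSubgroup,
          ((idealIdele T W : IdeleGroup) : Raw) ℓ
            (globalComp ι ((q.out : k.fixingSubgroup) : Γ)) := by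
    intro ℓ ι
    let ev : IdeleGroup →* (PadicAlgCl (ℓ : ℕ))ˣ :=
      { toFun := fun f => (f : Raw) ℓ ι, map_one' := rfl, map_mul' := fun _ _ => rfl }
    show ev (relNorm k L (idealIdele T W)) = _
    rw [relNorm, cosetProd, finprod_eq_prod_of_fintype, map_prod]
    rfl
  refine ⟨fun ℓ hℓ ι => ?_, fun ℓ hℓ ι => ?_⟩
  · rw [hprod]
    exact Finset.prod_eq_one fun q _ => idealIdele_of_mem W hℓ _
  set n := Fintype.card (ClassGroup (𝓞 L)) with hn
  have hnpos : n ≠ 0 := Fintype.card_ne_zero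
  obtain ⟨x, hx⟩ : ∃ x : 𝓞 L, W ^ n = Ideal.span {x} := by
    have h1 : ClassGroup.mk0 (⟨W, mem_nonZeroDivisors_of_ne_zero hW0⟩ ^ n) = 1 := by
      rw [map_pow]; exact pow_card_eq_one
    obtain ⟨x, hx⟩ := ((ClassGroup.mk0_eq_one_iff _).mp h1).principal
    exact ⟨x, hx⟩
  obtain ⟨e, he⟩ := exists_equiv_algHom hkL
  have key : ((((Algebra.intNorm (𝓞 k) (𝓞 L) x : 𝓞 k) : k)) : Qb) =
      ∏ q : k.fixingSubgroup ⧸ L.fixingSubgroup.subgroupOf k.fixingSubgroup,
        ((q.out : k.fixingSubgroup) : Γ) ((x : L) : Qb) := by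
    have h1 : ((Algebra.intNorm (𝓞 k) (𝓞 L) x : 𝓞 k) : k) = Algebra.norm k (x : L) :=
      Algebra.algebraMap_intNorm (A := 𝓞 k) (K := k) (L := L) (B := 𝓞 L) x
    rw [h1]
    exact (Algebra.norm_eq_prod_embeddings k Qb (x : L)).trans
      ((Fintype.prod_equiv e _ _ fun q => (he q (x : L)).symm).symm)
  have hlhs : ‖(((relNorm k L (idealIdele T W) : IdeleGroup) : Raw) ℓ ι : PadicAlgCl (ℓ : ℕ))‖ ^ n =
      ‖embInt ι k (Algebra.intNorm (𝓞 k) (𝓞 L) x)‖ := by
    rw [embInt_apply, key, map_prod, norm_prod, hprod, Units.coe_prod, norm_prod,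
      ← Finset.prod_pow]
    refine Finset.prod_congr rfl fun q _ => ?_
    rw [norm_idealIdele hW0 hℓ, ← idealAbs_pow, hx, idealAbs_span_singleton]
    rfl
  have hrhs : idealAbs ι P ^ n = ‖embInt ι k (Algebra.intNorm (𝓞 k) (𝓞 L) x)‖ := by
    rw [← idealAbs_pow, ← idealAbs_span_singleton, ← Ideal.relNorm_singleton, ← hx, map_pow, hP]
  exact (pow_left_inj₀ (norm_nonneg _) (idealAbs_nonneg ι P) hnpos).mp (hlhs.trans hrhs.symm)

/-- At most `p` degree one primes lie over a prime. -/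
theorem card_le_of_comap_eq {P : Ideal (𝓞 k)} (hP : (Ideal.absNorm P).Prime)
    (U : Finset (Ideal (𝓞 L))) (hU : ∀ W ∈ U, (Ideal.absNorm W).Prime ∧
      W.comap (inclInt hkL.le) = P ∧ Ideal.absNorm W = Ideal.absNorm P) : U.card ≤ p := by
  classical
  letI : Algebra k L := (IntermediateField.inclusion hkL.le).toRingHom.toAlgebra
  haveI : IsScalarTower ℚ k L := IsScalarTower.of_algebraMap_eq fun _ => rfl
  haveI : FiniteDimensional k L := FiniteDimensional.right ℚ k L
  have halg : algebraMap (𝓞 k) (𝓞 L) = inclInt hkL.le := RingHom.ext fun _ => rfl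
  have hdvd : ∏ W ∈ U, W ∣ P.map (algebraMap (𝓞 k) (𝓞 L)) := by
    refine Finset.prod_primes_dvd _ (fun W hW => ?_) fun W hW => ?_
    · refine Ideal.prime_of_isPrime ?_ (Ideal.isPrime_of_irreducible_absNorm (hU W hW).1)
      rintro rfl
      have := (hU _ hW).1
      rw [Ideal.absNorm_bot] at this
      exact Nat.not_prime_zero this
    · rw [Ideal.dvd_iff_le, Ideal.map_le_iff_le_comap, halg, (hU W hW).2.1]
  have hnorm : Ideal.absNorm (P.map (algebraMap (𝓞 k) (𝓞 L))) = Ideal.absNorm P ^ p := by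
    rw [← Ideal.absNorm_relNorm (𝓞 k), Ideal.relNorm_algebraMap, map_pow,
      ← IsFractionRing.finrank_eq (𝓞 k) k (𝓞 L) L, finrank_eq_degree hkL]
  have h1 := map_dvd (Ideal.absNorm (S := 𝓞 L)) hdvd
  rw [map_prod, Finset.prod_congr rfl (fun W hW => (hU W hW).2.2), Finset.prod_const, hnorm] at h1
  exact (Nat.pow_dvd_pow_iff_le_right hP.one_lt).mp h1

end Fermat.Agent.ClassField.Idele.SecondIneq
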