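import Fermat.Agent.ClassField.Idele.SecondIneq.Chars
import Fermat.Agent.ClassField.Idele.SecondIneq.Norms

/-!
# The analytic inequality for subgroups of the ideles

`mul_tsum_le_log`: `d` independent idele characters bound the prime sum over the primes they kill
by `p ^ (-d) * log (1/(s-1))`; `exists_lower_bound`: the primes of `k` lying under degree one
primes of `L` have prime sum at least `p⁻¹ * log (1/(s-1))`.
-/

set_option autoImplicit false

noncomputable section

open IntermediateField IsDedekindDomain Filter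
open scoped NumberField Topology

namespace Fermat.Agent.ClassField.Idele.SecondIneq

local notation "Qb" => AlgebraicClosure ℚ
local notation "Γ" => (AlgebraicClosure ℚ ≃ₐ[ℚ] AlgebraicClosure ℚ)

variable {p : ℕ} [Fact p.Prime] {K : IntermediateField ℚ Qb} [FiniteDimensional ℚ K]

/-- A field with a primitive root of unity of odd order is totally complex. -/
lemma isTotallyComplex (hp : p ≠ 2) {ζ : Qb} (hζ : IsPrimitiveRoot ζ p) (hζK : ζ ∈ K) :
    NumberField.IsTotallyComplex K := by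
  refine ⟨fun w => NumberField.InfinitePlace.not_isReal_iff_isComplex.mp fun hw => ?_⟩
  set f := NumberField.InfinitePlace.embedding_of_isReal hw
  set z : K := ⟨ζ, hζK⟩
  have hz : f z ^ p = 1 := by
    rw [← map_pow, show z ^ p = 1 from Subtype.ext hζ.pow_eq_one, map_one]
  have hodd : Odd p := (Fact.out : p.Prime).odd_of_ne_two hp
  have h1 : f z = 1 := by
    refine hodd.strictMono_pow.injective ?_
    show f z ^ p = (1 : ℝ) ^ p
    rw [one_pow, hz]
  have h2 : z = 1 := f.injective (by rw [h1, map_one])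
  exact hζ.ne_one (Fact.out : p.Prime).one_lt (congrArg Subtype.val h2)

variable {T : Finset Nat.Primes}

open Classical in
/-- The ray class character on ideals attached to an idele character. -/
def idealChar (φ : IdeleGroup → ZMod p) (T : Finset Nat.Primes) (M : ℕ) (I : Ideal (𝓞 K)) : ℂ :=
  if I ≠ ⊥ ∧ IsCoprime I (modIdeal K M) then
    ZMod.stdAddChar (φ (idealIdele (T : Set Nat.Primes) I))
  else 0

lemma norm_stdAddChar (x : ZMod p) : ‖ZMod.stdAddChar x‖ = 1 := by
  rw [ZMod.stdAddChar_apply, Circle.norm_coe]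

private theorem addChar_map_sum {A M ι : Type*} [AddCommMonoid A] [CommMonoid M]
    (ψ : AddChar A M) (s : Finset ι) (f : ι → A) : ψ (∑ i ∈ s, f i) = ∏ i ∈ s, ψ (f i) := by
  classical
  induction s using Finset.induction_on with
  | empty => simp
  | insert a s ha ih => rw [Finset.sum_insert ha, Finset.prod_insert ha, AddChar.map_add_eq_mul, ih]

/-- Linear combinations of idele characters. -/
lemma IsIdeleChar.sum_smul {d : ℕ} {φ : Fin d → IdeleGroup → ZMod p}
    (hφ : ∀ i, IsIdeleChar p K T (φ i)) (a : Fin d → ZMod p) :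
    IsIdeleChar p K T (fun f => ∑ i, a i * φ i f) where
  map_mul' f hf g hg := by
    simp only [(hφ _).map_mul' f hf g hg, mul_add, Finset.sum_add_distrib]
  map_principal x hx := by simp [(hφ _).map_principal x hx]
  map_unit f hf hu := by simp [(hφ _).map_unit f hf hu]

/-- The primes killed by the characters. -/
def killSet {d : ℕ} (φ : Fin d → IdeleGroup → ZMod p) (T : Finset Nat.Primes) :
    Set (HeightOneSpectrum (𝓞 K)) :=
  {v | (∀ ℓ ∈ T, ((ℓ : ℕ) : 𝓞 K) ∉ v.asIdeal) ∧
    ∀ i, φ i (idealIdele (T : Set Nat.Primes) v.asIdeal) = 0}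

/-- The analytic inequality. -/
theorem mul_tsum_le_log (hp : p ≠ 2) {ζ : Qb} (hζ : IsPrimitiveRoot ζ p) (hζK : ζ ∈ K)
    (hT : T.Nonempty) {d : ℕ} (φ : Fin d → IdeleGroup → ZMod p)
    (hφ : ∀ i, IsIdeleChar p K T (φ i))
    (hsurj : ∀ c : Fin d → ZMod p, ∃ f ∈ idelesOf K, ∀ i, φ i f = c i) :
    ∃ C : ℝ, ∀ s ∈ Set.Ioc (1 : ℝ) 2,
      ((p : ℝ) ^ d) * ∑' v : killSet (K := K) φ T,
        (Ideal.absNorm (v : HeightOneSpectrum (𝓞 K)).asIdeal : ℝ) ^ (-s) ≤
        Real.log (1 / (s - 1)) + C := by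
  classical
  haveI := isTotallyComplex hp hζ hζK
  obtain ⟨ε, hε, hroot⟩ := exists_near_one_pow (p := p) Fact.out
  obtain ⟨M, hM1, hMdvd, hMT, hMnorm⟩ := exists_modulus hT ε hε
  set m := modIdeal K M with hm
  have hm0 : m ≠ ⊥ := by
    rw [hm, Ne, Ideal.span_singleton_eq_bot]; exact Nat.cast_ne_zero.mpr (by omega)
  have hbot : ¬ IsCoprime (⊥ : Ideal (𝓞 K)) m := by
    rw [Ideal.isCoprime_iff_sup_eq, bot_sup_eq, hm, Ideal.span_singleton_eq_top]
    intro h
    obtain ⟨ℓ, hℓ⟩ := hT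
    obtain ⟨ι⟩ := nonempty_emb ℓ
    obtain ⟨u, hu⟩ := h
    have h1 := norm_embInt_le_one ι K ((u⁻¹ : (𝓞 K)ˣ) : 𝓞 K)
    have h3 : embInt ι K ((u⁻¹ : (𝓞 K)ˣ) : 𝓞 K) * (M : PadicAlgCl (ℓ : ℕ)) = 1 := by
      rw [← map_natCast (embInt ι K), ← map_mul, ← hu, Units.inv_mul, map_one]
    have hMlt : ‖(M : PadicAlgCl (ℓ : ℕ))‖ < 1 := by
      obtain ⟨c, hc⟩ := hMdvd ℓ hℓ
      rw [hc, Nat.cast_mul, norm_mul, norm_natCast_prime]
      exact mul_lt_one_of_nonneg_of_lt_one_left (by positivity)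
        (inv_lt_one_of_one_lt₀ (Nat.one_lt_cast.2 ℓ.2.one_lt))
        (IsUltrametricDist.norm_natCast_le_one _ c)
    have h4 := congrArg norm h3
    rw [norm_mul, norm_one] at h4
    have := mul_lt_one_of_nonneg_of_lt_one_right h1 (norm_nonneg _) hMlt
    rw [h4] at this
    exact lt_irrefl _ this
  let ψ : (Fin d → ZMod p) → IdeleGroup → ZMod p := fun a f => ∑ i, a i * φ i f
  have hψ : ∀ a, IsIdeleChar p K T (ψ a) := IsIdeleChar.sum_smul hφ
  let χ : (Fin d → ZMod p) → Ideal (𝓞 K) → ℂ := fun a => idealChar (ψ a) T M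
  have hmul : ∀ a I J, χ a (I * J) = χ a I * χ a J := by
    intro a I J
    simp only [χ, idealChar]
    by_cases hI : I ≠ ⊥ ∧ IsCoprime I (modIdeal K M)
    · by_cases hJ : J ≠ ⊥ ∧ IsCoprime J (modIdeal K M)
      · rw [if_pos hI, if_pos hJ, if_pos ⟨mul_ne_zero hI.1 hJ.1, hI.2.mul_left hJ.2⟩,
          map_idealIdele_mul (hψ a) hI.1 hJ.1, AddChar.map_add_eq_mul]
      · rw [if_neg hJ, mul_zero, if_neg]
        exact fun h => hJ ⟨fun e => h.1 (by rw [e, Ideal.mul_bot]), h.2.of_mul_left_right⟩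
    · rw [if_neg hI, zero_mul, if_neg]
      exact fun h => hI ⟨fun e => h.1 (by rw [e, Ideal.bot_mul]), h.2.of_mul_left_left⟩
  have hone : ∀ a, χ a ⊤ = 1 := by
    intro a
    simp only [χ, idealChar]
    rw [if_pos ⟨top_ne_bot, by rw [← Ideal.one_eq_top]; exact isCoprime_one_left⟩,
      map_idealIdele_top (hψ a), AddChar.map_zero_eq_one]
  have hle : ∀ a I, ‖χ a I‖ ≤ 1 := by
    intro a I
    simp only [χ, idealChar]
    split_ifs
    · rw [norm_stdAddChar]
    · simp
  have hpos : ∀ P : Ideal (𝓞 K), P.IsPrime → P ≠ ⊥ → ∀ n : ℕ, 0 < n →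
      (∑ a, χ a P ^ n).im = 0 ∧ 0 ≤ (∑ a, χ a P ^ n).re := by
    intro P _ _ n hn
    simp only [χ, idealChar]
    by_cases h : P ≠ ⊥ ∧ IsCoprime P (modIdeal K M)
    · simp only [if_pos h, ← AddChar.map_nsmul_eq_pow]
      have : ∑ a : Fin d → ZMod p, ZMod.stdAddChar (n • ψ a (idealIdele (T : Set Nat.Primes) P)) =
          ∏ i : Fin d, ∑ x : ZMod p,
            ZMod.stdAddChar (x * ((n : ZMod p) * φ i (idealIdele (T : Set Nat.Primes) P))) := by
        rw [Finset.prod_univ_sum, Fintype.piFinset_univ]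
        refine Finset.sum_congr rfl fun a _ => ?_
        simp only [ψ, nsmul_eq_mul, Finset.mul_sum]
        rw [addChar_map_sum]
        refine Finset.prod_congr rfl fun i _ => ?_
        congr 1; ring
      rw [this, Finset.prod_congr rfl fun i _ =>
        AddChar.sum_mulShift _ (ZMod.isPrimitive_stdAddChar p), ← Nat.cast_prod]
      exact ⟨Complex.natCast_im _, by rw [Complex.natCast_re]; exact Nat.cast_nonneg _⟩
    · simp [if_neg h, hn.ne']
  have hbdd : ∀ a : Fin d → ZMod p, a ≠ 0 → ∃ C : ℝ, ∀ s ∈ Set.Ioc (1 : ℝ) 2,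
      ‖∑' I : Ideal (𝓞 K), χ a I * ((Ideal.absNorm I : ℝ) ^ (-s) : ℝ)‖ ≤ C := by
    intro a ha
    refine exists_bound_tsum_rayChar m hm0 (χ a) (hmul a) (fun I hI => ?_) (fun I hI => ?_) ?_ ?_
    · simp only [χ, idealChar]; rw [if_neg (fun h => hI h.2)]
    · simp only [χ, idealChar]
      rw [if_pos ⟨fun h => hbot (h ▸ hI), hI⟩, norm_stdAddChar]
    · intro x y hx hy hxy
      have hiff : IsCoprime (Ideal.span {x}) m ↔ IsCoprime (Ideal.span {y}) m := by
        rw [Ideal.isCoprime_iff_sup_eq, Ideal.isCoprime_iff_sup_eq]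
        have hs : Ideal.span {x} ⊔ m = Ideal.span {y} ⊔ m := by
          refine le_antisymm (sup_le ?_ le_sup_right) (sup_le ?_ le_sup_right) <;>
            rw [Ideal.span_singleton_le_iff_mem]
          · rw [← sub_add_cancel x y]
            exact add_mem (Ideal.mem_sup_right hxy)
              (Ideal.mem_sup_left (Ideal.mem_span_singleton_self y))
          · rw [← sub_sub_cancel x y]
            exact sub_mem (Ideal.mem_sup_left (Ideal.mem_span_singleton_self x))
              (Ideal.mem_sup_right hxy)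
        rw [hs]
      simp only [χ, idealChar]
      by_cases hc : IsCoprime (Ideal.span {x}) m
      · rw [if_pos ⟨by rwa [Ne, Ideal.span_singleton_eq_bot], hc⟩,
          if_pos ⟨by rwa [Ne, Ideal.span_singleton_eq_bot], hiff.mp hc⟩,
          map_idealIdele_span (hψ a) hx, map_idealIdele_span (hψ a) hy]
        congr 2
        refine cut_congr (hψ a) (fun f hf => hroot T K inferInstance f hf)
          (principal_mem_idelesOf (intUnit_mem x hx)) (principal_mem_idelesOf (intUnit_mem y hy))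
          fun ℓ hℓ ι => ?_
        have hy1 : ‖embInt ι K y‖ = 1 := norm_embInt_eq_one (hiff.mp hc) (hMdvd ℓ hℓ) ι
        rw [principal_apply, principal_apply]
        show ‖embInt ι K x / embInt ι K y - 1‖ < ε ℓ
        rw [div_sub_one (norm_ne_zero_iff.mp (hy1.trans_ne one_ne_zero)), norm_div, hy1, div_one,
          ← map_sub]
        obtain ⟨c, hc'⟩ := Ideal.mem_span_singleton'.mp hxy
        rw [← hc', map_mul, map_natCast, norm_mul]
        exact lt_of_le_of_lt (mul_le_of_le_one_left (norm_nonneg _) (norm_embInt_le_one ι K c))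
          (hMnorm ℓ hℓ)
      · rw [if_neg (fun h => hc h.2), if_neg (fun h => hc (hiff.mpr h.2))]
    · obtain ⟨j, hj⟩ := Function.ne_iff.mp ha
      obtain ⟨f, hf, hfc⟩ := hsurj (Pi.single j 1)
      have hne : ψ a f ≠ 0 := by
        simp only [ψ, hfc]
        rw [Finset.sum_eq_single j (fun i _ hi => by simp [hi]) (by simp)]
        simpa using hj
      obtain ⟨I, hI, hIne⟩ := exists_ideal_map_ne_zero (hψ a) hε
        (fun T' f hf => hroot T' K inferInstance f hf) hMT hf hne
      refine ⟨I, hI, ?_⟩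
      simp only [χ, idealChar]
      rw [if_pos ⟨fun h => hbot (h ▸ hI), hI⟩, ← AddChar.map_zero_eq_one (ZMod.stdAddChar (N := p))]
      exact fun h => hIne (ZMod.injective_stdAddChar h)
  have hSp : ∀ a, ∀ v ∈ killSet (K := K) φ T, χ a v.asIdeal = 1 := by
    intro a v hv
    have hcop : IsCoprime v.asIdeal m := by
      rw [Ideal.isCoprime_iff_sup_eq]
      by_contra h
      have hle : v.asIdeal ⊔ m = v.asIdeal := (v.isMaximal.eq_of_le h le_sup_left).symm
      have hMv : (M : 𝓞 K) ∈ v.asIdeal := by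
        rw [← hle]; exact Ideal.mem_sup_right (Ideal.mem_span_singleton_self _)
      have hM0 : M ≠ 0 := by omega
      have hmem : ((M.primeFactorsList.map (Nat.cast : ℕ → 𝓞 K)).prod) ∈ v.asIdeal := by
        rwa [← Nat.cast_list_prod, Nat.prod_primeFactorsList hM0]
      rw [← Multiset.prod_coe] at hmem
      obtain ⟨b, hb, hbv⟩ := (v.isPrime.multiset_prod_mem_iff_exists_mem _).mp hmem
      obtain ⟨q, hq, rfl⟩ := List.mem_map.mp hb
      obtain ⟨ℓ, hℓ, rfl⟩ := hMT q (Nat.prime_of_mem_primeFactorsList hq)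
        (Nat.dvd_of_mem_primeFactorsList hq)
      exact hv.1 ℓ hℓ hbv
    simp only [χ, idealChar]
    rw [if_pos ⟨v.ne_bot, hcop⟩]
    simp [ψ, hv.2]
  obtain ⟨C, hC⟩ := card_mul_tsum_le_log (0 : Fin d → ZMod p) χ hmul hone hle hpos hbdd _ hSp
  refine ⟨C, fun s hs => ?_⟩
  have h := hC s hs
  rwa [Fintype.card_fun, ZMod.card, Fintype.card_fin, Nat.cast_pow] at h

variable {k L : IntermediateField ℚ Qb} [FiniteDimensional ℚ k] [FiniteDimensional ℚ L]

/-- The primes killed by characters trivial on norms have lower prime density at least `1/p`. -/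
theorem exists_lower_bound (hkL : IsPrimeCyclic p k L) {d : ℕ} (φ : Fin d → IdeleGroup → ZMod p)
    (hφ : ∀ i, IsIdeleChar p k T (φ i))
    (hnorm : ∀ g ∈ idelesOf L, ∀ i, φ i (relNorm k L g) = 0) :
    ∃ C : ℝ, ∀ᶠ s in 𝓝[>] (1 : ℝ), Real.log (1 / (s - 1)) ≤
      (p : ℝ) * (∑' v : killSet (K := k) φ T,
        (Ideal.absNorm (v : HeightOneSpectrum (𝓞 k)).asIdeal : ℝ) ^ (-s)) + C := by
  classical
  obtain ⟨C, hC⟩ := Density.exists_abs_tsum_idealCount_sub_log_le L
  refine ⟨C + ∑ ℓ ∈ T, (Density.idealCount L ℓ : ℝ), ?_⟩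
  filter_upwards [hC, self_mem_nhdsWithin] with s ⟨hsum, habs⟩ hs
  have hs1 : 1 < s := hs
  set g : Nat.Primes → ℝ := fun ℓ => (Density.idealCount L ℓ : ℝ) * (ℓ : ℝ) ^ (-s)
  set w : HeightOneSpectrum (𝓞 k) → ℝ := fun v => (Ideal.absNorm v.asIdeal : ℝ) ^ (-s)
  have hw0 : ∀ v, 0 ≤ w v := fun v => Real.rpow_nonneg (Nat.cast_nonneg _) _
  have hS : Summable fun v : killSet (K := k) φ T => w v := by
    have h := (PrimeSum.summable_wt k hs1).comp_injective
      (i := fun v : HeightOneSpectrum (𝓞 k) => v.asIdeal) (fun a b h => HeightOneSpectrum.ext h)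
    exact h.subtype _
  have hbound : ∀ F : Finset Nat.Primes, ∑ ℓ ∈ F, g ℓ ≤
      (p : ℝ) * (∑' v : killSet (K := k) φ T, w v) + ∑ ℓ ∈ T, (Density.idealCount L ℓ : ℝ) := by
    intro F
    rw [← Finset.sum_sdiff (Finset.inter_subset_left : F ∩ T ⊆ F)]
    refine add_le_add ?_ ?_
    swap
    · refine le_trans (Finset.sum_le_sum fun ℓ _ => ?_)
        (Finset.sum_le_sum_of_subset_of_nonneg Finset.inter_subset_right fun _ _ _ => Nat.cast_nonneg _)
      exact mul_le_of_le_one_right (Nat.cast_nonneg _)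
        (Real.rpow_le_one_of_one_le_of_nonpos (Nat.one_le_cast.2 ℓ.2.one_lt.le) (by linarith))
    let Wset : Finset (Ideal (𝓞 L)) := (F \ (F ∩ T)).biUnion fun ℓ =>
      (Ideal.finite_setOfPred_absNorm_eq (ℓ : ℕ)).toFinset
    have hWmem : ∀ W ∈ Wset, ∃ ℓ ∈ F \ (F ∩ T), Ideal.absNorm W = (ℓ : ℕ) := by
      intro W hW
      obtain ⟨ℓ, hℓ, h⟩ := Finset.mem_biUnion.mp hW
      exact ⟨ℓ, hℓ, (Set.Finite.mem_toFinset (Ideal.finite_setOfPred_absNorm_eq (S := 𝓞 L) (ℓ : ℕ))).mp h⟩
    have hlhs : ∑ ℓ ∈ F \ (F ∩ T), g ℓ = ∑ W ∈ Wset, (Ideal.absNorm W : ℝ) ^ (-s) := by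
      rw [Finset.sum_biUnion]
      · refine Finset.sum_congr rfl fun ℓ _ => ?_
        rw [Finset.sum_congr rfl (fun W hW => by
          rw [(Set.Finite.mem_toFinset _).mp hW] :
          ∀ W ∈ (Ideal.finite_setOfPred_absNorm_eq (S := 𝓞 L) (ℓ : ℕ)).toFinset,
            (Ideal.absNorm W : ℝ) ^ (-s) = (ℓ : ℝ) ^ (-s)), Finset.sum_const, nsmul_eq_mul]
        congr 2
        rw [← Nat.card_eq_card_finite_toFinset]
        rfl
      · intro ℓ _ ℓ' _ hne
        rw [Function.onFun, Finset.disjoint_left]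
        intro W h h'
        apply hne
        exact Subtype.ext ((((Set.Finite.mem_toFinset
            (Ideal.finite_setOfPred_absNorm_eq (S := 𝓞 L) (ℓ : ℕ))).mp h).symm).trans
          ((Set.Finite.mem_toFinset
            (Ideal.finite_setOfPred_absNorm_eq (S := 𝓞 L) (ℓ' : ℕ))).mp h'))
    rw [hlhs]
    have hprime : ∀ W ∈ Wset, (Ideal.absNorm W).Prime := fun W hW => by
      obtain ⟨ℓ, -, h⟩ := hWmem W hW
      rw [h]; exact ℓ.2
    have hv : ∀ W : Wset, ∃ v : killSet (K := k) φ T,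
        (v : HeightOneSpectrum (𝓞 k)).asIdeal = W.1.comap (inclInt hkL.le) ∧
          Ideal.absNorm (v : HeightOneSpectrum (𝓞 k)).asIdeal = Ideal.absNorm W.1 := by
      intro W
      obtain ⟨hN, gW, hgW, hgT, hgout⟩ :=
        exists_norm_idele_of_absNorm_prime hkL (T : Set Nat.Primes) (hprime W.1 W.2)
      obtain ⟨ℓ, hℓ, hWℓ⟩ := hWmem W.1 W.2
      set P := W.1.comap (inclInt hkL.le) with hP
      have hPn : (Ideal.absNorm P).Prime := by rw [hN]; exact hprime W.1 W.2
      have hP0 : P ≠ ⊥ := by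
        intro h; rw [h, Ideal.absNorm_bot] at hPn; exact Nat.not_prime_zero hPn
      refine ⟨⟨⟨P, Ideal.isPrime_of_irreducible_absNorm hPn, hP0⟩, fun q hq hqP => ?_, fun i => ?_⟩,
        rfl, hN⟩
      · have hd := Ideal.absNorm_dvd_absNorm_of_le
          ((Ideal.span_singleton_le_iff_mem P).mpr hqP)
        rw [Ideal.absNorm_span_natCast, hN, hWℓ] at hd
        have := (Nat.prime_dvd_prime_iff_eq ℓ.2 q.2).mp (ℓ.2.dvd_of_dvd_pow hd)
        obtain ⟨hℓF, hℓn⟩ := Finset.mem_sdiff.mp hℓ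
        exact hℓn (Finset.mem_inter.mpr ⟨hℓF, (Subtype.ext this : ℓ = q) ▸ hq⟩)
      · rw [← hnorm gW hgW i]
        refine (hφ i).eq_of_norm_eq (idealIdele_mem _ _) (relNorm_mem_idelesOf hgW)
          (fun r hr ι => ?_) fun r hr ι => ?_
        · rw [idealIdele_of_mem _ (Finset.mem_coe.mpr hr), hgT r (Finset.mem_coe.mpr hr)]
        · rw [norm_idealIdele hP0 (fun h => hr (Finset.mem_coe.mp h)),
            hgout r (fun h => hr (Finset.mem_coe.mp h))]
    choose v hvI hvN using hv
    calc ∑ W ∈ Wset, (Ideal.absNorm W : ℝ) ^ (-s)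
        = ∑ W : Wset, w (v W) := by
          rw [← Finset.sum_coe_sort Wset]
          refine Finset.sum_congr rfl fun W _ => ?_
          simp only [w, hvN]
      _ = ∑ u ∈ (Finset.univ : Finset Wset).image v,
            ((Finset.univ.filter fun W => v W = u).card : ℝ) * w u := by
          rw [← Finset.sum_fiberwise_of_maps_to (t := Finset.univ.image v) (g := v)
            (fun W hW => Finset.mem_image_of_mem v hW)]
          refine Finset.sum_congr rfl fun u _ => ?_
          rw [Finset.sum_congr rfl (fun W hW => by rw [(Finset.mem_filter.mp hW).2] :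
            ∀ W ∈ Finset.univ.filter (fun W => v W = u), w (v W) = w u), Finset.sum_const,
            nsmul_eq_mul]
      _ ≤ ∑ u ∈ (Finset.univ : Finset Wset).image v, (p : ℝ) * w u := by
          refine Finset.sum_le_sum fun u hu => mul_le_mul_of_nonneg_right ?_ (hw0 _)
          obtain ⟨W₀, -, rfl⟩ := Finset.mem_image.mp hu
          have hc := card_le_of_comap_eq hkL (P := (v W₀ : HeightOneSpectrum (𝓞 k)).asIdeal)
            (by rw [hvN]; exact hprime W₀.1 W₀.2)
            ((Finset.univ.filter fun W => v W = v W₀).map ⟨Subtype.val, Subtype.val_injective⟩)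
            (fun W hW => by
              obtain ⟨W', hW', rfl⟩ := Finset.mem_map.mp hW
              have he := (Finset.mem_filter.mp hW').2
              refine ⟨hprime W'.1 W'.2, ?_, ?_⟩
              · rw [← he, hvI]; rfl
              · rw [← he, hvN]; rfl)
          rw [Finset.card_map] at hc
          exact_mod_cast hc
      _ = (p : ℝ) * ∑ u ∈ (Finset.univ : Finset Wset).image v, w u := (Finset.mul_sum ..).symm
      _ ≤ (p : ℝ) * ∑' u : killSet (K := k) φ T, w u :=
          mul_le_mul_of_nonneg_left (hS.sum_le_tsum _ fun u _ => hw0 _) (Nat.cast_nonneg _)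
  have h := hsum.tsum_le_of_sum_le hbound
  have h2 := (abs_le.mp habs).1
  linarith

end Fermat.Agent.ClassField.Idele.SecondIneq
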