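import Fermat.Agent.ClassField.Idele.SecondIneq.Approx
import Fermat.Agent.ClassField.Idele.SecondIneq.IdealIdele
import Fermat.Agent.ClassField.PrimeSum
import Fermat.Agent.ClassField.RayLSeriesBound
import Fermat.Agent.Density.Analytic
import Mathlib.NumberTheory.LegendreSymbol.AddCharacter

/-!
# Idele characters of exponent `p` and the analytic inequality

`IsIdeleChar` collects what makes an additive function on the ideles of `K` a ray class character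
on ideals; `mul_tsum_le_log` is the resulting bound on the primes killed by `d` independent
characters.
-/

set_option autoImplicit false

noncomputable section

open IntermediateField IsDedekindDomain
open scoped NumberField

namespace Fermat.Agent.ClassField.Idele.SecondIneq

local notation "Qb" => AlgebraicClosure ℚ
local notation "Γ" => (AlgebraicClosure ℚ ≃ₐ[ℚ] AlgebraicClosure ℚ)

/-- An additive function on the ideles of `K`, trivial on principal ideles, `p`-th powers and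
units away from `T`. -/
structure IsIdeleChar (p : ℕ) (K : IntermediateField ℚ Qb) (T : Finset Nat.Primes)
    (φ : IdeleGroup → ZMod p) : Prop where
  map_mul' : ∀ f ∈ idelesOf K, ∀ g ∈ idelesOf K, φ (f * g) = φ f + φ g
  map_principal : ∀ x : Qbˣ, (x : Qb) ∈ K → φ (principal x) = 0
  map_unit : ∀ f ∈ idelesOf K, f ∈ unitsAway (T : Set Nat.Primes) → φ f = 0

variable {p : ℕ} {K : IntermediateField ℚ Qb} {T : Finset Nat.Primes} {φ : IdeleGroup → ZMod p}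

namespace IsIdeleChar

variable (hφ : IsIdeleChar p K T φ)
include hφ

lemma map_one' : φ 1 = 0 := by
  have h := hφ.map_mul' 1 (one_mem _) 1 (one_mem _)
  rw [mul_one] at h
  simpa using h

lemma map_inv' {f : IdeleGroup} (hf : f ∈ idelesOf K) : φ f⁻¹ = -φ f := by
  have h := hφ.map_mul' f hf f⁻¹ (inv_mem hf)
  rw [mul_inv_cancel, hφ.map_one'] at h
  exact eq_neg_of_add_eq_zero_right h.symm

lemma map_pow_eq_zero {f : IdeleGroup} (hf : f ∈ idelesOf K) : φ (f ^ p) = 0 := by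
  have h : ∀ n : ℕ, φ (f ^ n) = n * φ f := by
    intro n
    induction n with
    | zero => rw [pow_zero, hφ.map_one']; simp
    | succ n ih => rw [pow_succ, hφ.map_mul' _ (pow_mem hf n) f hf, ih]; push_cast; ring
  rw [h, ZMod.natCast_self, zero_mul]

lemma eq_of_norm_eq {f f' : IdeleGroup} (hf : f ∈ idelesOf K) (hf' : f' ∈ idelesOf K)
    (hT : ∀ ℓ ∈ T, ∀ ι, (f : Raw) ℓ ι = (f' : Raw) ℓ ι)
    (hout : ∀ ℓ ∉ T, ∀ ι, ‖((f : Raw) ℓ ι : PadicAlgCl (ℓ : ℕ))‖ =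
      ‖((f' : Raw) ℓ ι : PadicAlgCl (ℓ : ℕ))‖) : φ f = φ f' := by
  have hu : φ (f * f'⁻¹) = 0 := hφ.map_unit _ (mul_mem hf (inv_mem hf'))
    ⟨fun ℓ hℓ ι => by simp [hT ℓ (Finset.mem_coe.mp hℓ) ι], fun ℓ hℓ ι => by
      simp [hout ℓ (fun h => hℓ (Finset.mem_coe.mpr h)) ι]⟩
  rw [hφ.map_mul' f hf _ (inv_mem hf'), hφ.map_inv' hf', ← sub_eq_add_neg, sub_eq_zero] at hu
  exact hu

lemma cut_compl {f : IdeleGroup} (hf : f ∈ idelesOf K) :
    φ (cut (T : Set Nat.Primes)ᶜ f) = φ f - φ (cut (T : Set Nat.Primes) f) := by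
  have h := hφ.map_mul' _ (cut_mem_idelesOf (T : Set Nat.Primes) hf) _
    (cut_mem_idelesOf (T : Set Nat.Primes)ᶜ hf)
  rw [cut_mul_cut_compl] at h
  rw [h]; ring

end IsIdeleChar

variable [FiniteDimensional ℚ K] [Fact p.Prime]

/-- The modulus: a natural number supported on `T`, very divisible by its primes. -/
lemma exists_modulus (hT : T.Nonempty) (ε : Nat.Primes → ℝ) (hε : ∀ ℓ, 0 < ε ℓ) :
    ∃ M : ℕ, 1 < M ∧ (∀ ℓ ∈ T, (ℓ : ℕ) ∣ M) ∧
      (∀ q : ℕ, q.Prime → q ∣ M → ∃ ℓ ∈ T, (ℓ : ℕ) = q) ∧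
      ∀ ℓ ∈ T, ‖(M : PadicAlgCl (ℓ : ℕ))‖ < ε ℓ := by
  classical
  have hpw : ∀ ℓ : Nat.Primes, ∃ n : ℕ, 0 < n ∧ (((ℓ : ℕ) : ℝ)⁻¹) ^ n < ε ℓ := by
    intro ℓ
    obtain ⟨n, hn⟩ := exists_pow_lt_of_lt_one (hε ℓ)
      (inv_lt_one_of_one_lt₀ (Nat.one_lt_cast.2 ℓ.2.one_lt : (1 : ℝ) < (ℓ : ℕ)))
    refine ⟨n + 1, n.succ_pos, lt_of_le_of_lt ?_ hn⟩
    exact pow_le_pow_of_le_one (by positivity)
      (inv_le_one_of_one_le₀ (Nat.one_le_cast.2 ℓ.2.one_lt.le)) n.le_succ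
  choose n hn hlt using hpw
  refine ⟨∏ ℓ ∈ T, (ℓ : ℕ) ^ n ℓ, ?_, fun ℓ hℓ => ?_, fun q hq hqd => ?_, fun ℓ hℓ => ?_⟩
  · obtain ⟨ℓ, hℓ⟩ := hT
    refine lt_of_lt_of_le (Nat.one_lt_pow (hn ℓ).ne' ℓ.2.one_lt)
      (Nat.le_of_dvd (Finset.prod_pos fun i _ => pow_pos i.2.pos _) ?_)
    exact Finset.dvd_prod_of_mem (fun i : Nat.Primes => (i : ℕ) ^ n i) hℓ
  · exact (dvd_pow_self _ (hn ℓ).ne').trans
      (Finset.dvd_prod_of_mem (fun i : Nat.Primes => (i : ℕ) ^ n i) hℓ)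
  · obtain ⟨ℓ, hℓ, hd⟩ := (Prime.dvd_finsetProd_iff (Nat.prime_iff.mp hq) _).mp hqd
    exact ⟨ℓ, hℓ, ((Nat.prime_dvd_prime_iff_eq hq ℓ.2).mp (hq.dvd_of_dvd_pow hd)).symm⟩
  · rw [Nat.cast_prod, norm_prod, ← Finset.mul_prod_erase T _ hℓ]
    refine lt_of_le_of_lt ?_ (hlt ℓ)
    rw [Nat.cast_pow, norm_pow, norm_natCast_prime]
    refine mul_le_of_le_one_right (by positivity) (Finset.prod_le_one (fun _ _ => norm_nonneg _) ?_)
    intro i _
    exact IsUltrametricDist.norm_natCast_le_one _ _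

/-- The modulus as an ideal. -/
abbrev modIdeal (K : IntermediateField ℚ Qb) (M : ℕ) : Ideal (𝓞 K) :=
  Ideal.span {(M : 𝓞 K)}

variable {M : ℕ}

omit [Fact p.Prime] in
lemma norm_embInt_eq_one {x : 𝓞 K} (hx : IsCoprime (Ideal.span {x}) (modIdeal K M))
    {ℓ : Nat.Primes} (hℓ : (ℓ : ℕ) ∣ M) (ι : Emb ℓ) : ‖embInt ι K x‖ = 1 := by
  rw [Ideal.isCoprime_span_singleton_iff] at hx
  obtain ⟨a, b, hab⟩ := hx
  refine le_antisymm (norm_embInt_le_one ι K x) (not_lt.mp fun h => ?_)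
  have h1 := congrArg (embInt ι K) hab
  rw [map_add, map_mul, map_mul, map_one, map_natCast] at h1
  have hM : ‖(M : PadicAlgCl (ℓ : ℕ))‖ < 1 := by
    obtain ⟨c, rfl⟩ := hℓ
    rw [Nat.cast_mul, norm_mul, norm_natCast_prime]
    exact mul_lt_one_of_nonneg_of_lt_one_left (by positivity)
      (inv_lt_one_of_one_lt₀ (Nat.one_lt_cast.2 ℓ.2.one_lt))
      (IsUltrametricDist.norm_natCast_le_one _ c)
  have h2 := congrArg norm h1
  rw [norm_one] at h2
  have : ‖embInt ι K a * embInt ι K x + embInt ι K b * (M : PadicAlgCl (ℓ : ℕ))‖ < 1 := by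
    refine lt_of_le_of_lt (IsUltrametricDist.norm_add_le_max _ _) (max_lt ?_ ?_)
    · rw [norm_mul]
      exact mul_lt_one_of_nonneg_of_lt_one_right (norm_embInt_le_one ι K a) (norm_nonneg _) h
    · rw [norm_mul]
      exact mul_lt_one_of_nonneg_of_lt_one_right (norm_embInt_le_one ι K b) (norm_nonneg _) hM
  rw [h2] at this
  exact lt_irrefl _ this

/-- The unit of the algebraic numbers given by a nonzero integer of `K`. -/
def intUnit (x : 𝓞 K) (hx : x ≠ 0) : Qbˣ :=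
  Units.mk0 ((x : K) : Qb) fun h =>
    hx (NumberField.RingOfIntegers.coe_eq_zero_iff.mp (Subtype.ext h))

omit [FiniteDimensional ℚ K] [Fact p.Prime] in
lemma intUnit_mem (x : 𝓞 K) (hx : x ≠ 0) : ((intUnit x hx : Qbˣ) : Qb) ∈ K := (x : K).2

/-- The idele of a principal ideal, evaluated by a character. -/
lemma map_idealIdele_span (hφ : IsIdeleChar p K T φ) {x : 𝓞 K} (hx : x ≠ 0) :
    φ (idealIdele (T : Set Nat.Primes) (Ideal.span {x})) =
      -φ (cut (T : Set Nat.Primes) (principal (intUnit x hx))) := by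
  have hprin := principal_mem_idelesOf (intUnit_mem x hx)
  have h := hφ.cut_compl hprin
  rw [hφ.map_principal _ (intUnit_mem x hx), zero_sub] at h
  rw [← h]
  refine hφ.eq_of_norm_eq (idealIdele_mem _ _) (cut_mem_idelesOf _ hprin) (fun ℓ hℓ ι => ?_)
    fun ℓ hℓ ι => ?_
  · rw [idealIdele_of_mem _ (Finset.mem_coe.mpr hℓ),
      cut_of_notMem _ (show ℓ ∉ (T : Set Nat.Primes)ᶜ from fun h => h hℓ)]
  · rw [norm_idealIdele (by rwa [Ne, Ideal.span_singleton_eq_bot]) (fun h => hℓ h),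
      idealAbs_span_singleton, cut_of_mem _ (show ℓ ∈ (T : Set Nat.Primes)ᶜ from fun h => hℓ h),
      principal_apply, embInt_apply]
    rfl

lemma cut_congr (hφ : IsIdeleChar p K T φ) {ε : Nat.Primes → ℝ}
    (hroot : ∀ f ∈ idelesOf K,
      (∀ ℓ ∈ T, ∀ ι, ‖((f : Raw) ℓ ι : PadicAlgCl (ℓ : ℕ)) - 1‖ < ε ℓ) →
        (∀ ℓ ∉ T, ∀ ι, (f : Raw) ℓ ι = 1) → ∃ g ∈ idelesOf K, g ^ p = f)
    {f f' : IdeleGroup} (hf : f ∈ idelesOf K) (hf' : f' ∈ idelesOf K)
    (h : ∀ ℓ ∈ T, ∀ ι : Emb ℓ, ‖((f : Raw) ℓ ι : PadicAlgCl (ℓ : ℕ)) /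
      ((f' : Raw) ℓ ι : PadicAlgCl (ℓ : ℕ)) - 1‖ < ε ℓ) :
    φ (cut (T : Set Nat.Primes) f) = φ (cut (T : Set Nat.Primes) f') := by
  obtain ⟨g, hg, hgp⟩ := hroot _
    (cut_mem_idelesOf (T : Set Nat.Primes) (mul_mem hf (inv_mem hf')))
    (fun ℓ hℓ ι => by
      rw [cut_of_mem _ (Finset.mem_coe.mpr hℓ)]
      simpa [div_eq_mul_inv] using h ℓ hℓ ι)
    (fun ℓ hℓ ι => cut_of_notMem _ (fun h' => hℓ (Finset.mem_coe.mp h')) ι)
  have h0 : φ (cut (T : Set Nat.Primes) (f * f'⁻¹)) = 0 := by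
    rw [← hgp]; exact hφ.map_pow_eq_zero hg
  have h1 := hφ.map_mul' _ (cut_mem_idelesOf (T : Set Nat.Primes) (mul_mem hf (inv_mem hf'))) _
    (cut_mem_idelesOf (T : Set Nat.Primes) hf')
  rw [← cut_mul, inv_mul_cancel_right, h0, zero_add] at h1
  exact h1

/-- Multiplicativity of the idele of an ideal. -/
lemma map_idealIdele_mul (hφ : IsIdeleChar p K T φ) {I J : Ideal (𝓞 K)} (hI : I ≠ ⊥)
    (hJ : J ≠ ⊥) : φ (idealIdele (T : Set Nat.Primes) (I * J)) =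
      φ (idealIdele (T : Set Nat.Primes) I) + φ (idealIdele (T : Set Nat.Primes) J) := by
  rw [← hφ.map_mul' _ (idealIdele_mem _ _) _ (idealIdele_mem _ _)]
  refine hφ.eq_of_norm_eq (idealIdele_mem _ _) (mul_mem (idealIdele_mem _ _) (idealIdele_mem _ _))
    (fun ℓ hℓ ι => ?_) fun ℓ hℓ ι => ?_
  · simp [idealIdele_of_mem (T := (T : Set Nat.Primes)) _ (Finset.mem_coe.mpr hℓ)]
  · rw [Subgroup.coe_mul, Raw.mul_apply, Units.val_mul, norm_mul,
      norm_idealIdele (mul_ne_zero hI hJ) (fun h => hℓ h), norm_idealIdele hI (fun h => hℓ h),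
      norm_idealIdele hJ (fun h => hℓ h), idealAbs_mul]

lemma map_idealIdele_top (hφ : IsIdeleChar p K T φ) :
    φ (idealIdele (T : Set Nat.Primes) (⊤ : Ideal (𝓞 K))) = 0 := by
  have h := map_idealIdele_mul hφ (I := (⊤ : Ideal (𝓞 K))) (J := ⊤) top_ne_bot top_ne_bot
  rw [← Ideal.one_eq_top, mul_one] at h
  rw [← Ideal.one_eq_top]
  simpa using h

/-- The part of a natural number prime to a finite set of primes. -/
lemma exists_primeTo_part (T' : Finset Nat.Primes) {n : ℕ} (hn : n ≠ 0) :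
    ∃ m : ℕ, m ≠ 0 ∧ (∀ ℓ ∈ T', ¬ (ℓ : ℕ) ∣ m) ∧
      (∀ ℓ ∈ T', ‖(m : PadicAlgCl (ℓ : ℕ))‖ = 1) ∧
      ∀ ℓ ∉ T', ‖(m : PadicAlgCl (ℓ : ℕ))‖ = ‖(n : PadicAlgCl (ℓ : ℕ))‖ := by
  classical
  let m : ℕ := n.factorization.prod fun q e => if ∃ ℓ ∈ T', (ℓ : ℕ) = q then 1 else q ^ e
  have hnd : ∀ ℓ ∈ T', ¬ (ℓ : ℕ) ∣ m := by
    intro ℓ hℓ hd
    obtain ⟨q, hq, hdq⟩ := (Prime.dvd_finsetProd_iff (Nat.prime_iff.mp ℓ.2) _).mp hd
    dsimp only at hdq
    split_ifs at hdq with h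
    · exact ℓ.2.ne_one (Nat.dvd_one.mp hdq)
    · exact h ⟨ℓ, hℓ, (Nat.prime_dvd_prime_iff_eq ℓ.2 (Nat.prime_of_mem_primeFactors hq)).mp
        (ℓ.2.dvd_of_dvd_pow hdq)⟩
  refine ⟨m, ?_, hnd, fun ℓ hℓ => ?_, fun ℓ hℓ => ?_⟩
  · refine Finset.prod_ne_zero_iff.mpr fun q hq => ?_
    dsimp only
    split_ifs
    · exact one_ne_zero
    · exact pow_ne_zero _ (Nat.prime_of_mem_primeFactors hq).ne_zero
  · rw [← map_natCast (algebraMap ℚ_[(ℓ : ℕ)] (PadicAlgCl (ℓ : ℕ))), norm_algebraMap']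
    exact Padic.norm_natCast_eq_one_iff.mpr (ℓ.2.coprime_iff_not_dvd.mpr (hnd ℓ hℓ))
  · conv_rhs => rw [← Nat.prod_factorization_pow_eq_self hn]
    simp only [m, Finsupp.prod, Nat.cast_prod, norm_prod]
    refine Finset.prod_congr rfl fun q hq => ?_
    split_ifs with h
    · obtain ⟨ℓ', hℓ', rfl⟩ := h
      have hne : ℓ' ≠ ℓ := fun e => hℓ (e ▸ hℓ')
      rw [Nat.cast_one, norm_one, Nat.cast_pow, norm_pow,
        ← map_natCast (algebraMap ℚ_[(ℓ : ℕ)] (PadicAlgCl (ℓ : ℕ))), norm_algebraMap',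
        norm_natCast_prime_other hne, one_pow]
    · rfl

/-- An ideal prime to the modulus with the absolute values of a given integer outside `T'`. -/
lemma exists_ideal_of_int (hφ : IsIdeleChar p K T φ)
    (hMT : ∀ q : ℕ, q.Prime → q ∣ M → ∃ ℓ ∈ T, (ℓ : ℕ) = q) {T' : Finset Nat.Primes}
    (hTT' : T ⊆ T') {a : 𝓞 K} (ha : a ≠ 0) :
    ∃ I : Ideal (𝓞 K), IsCoprime I (modIdeal K M) ∧
      φ (idealIdele (T : Set Nat.Primes) I) =
        φ (cut (T' : Set Nat.Primes)ᶜ (principal (intUnit a ha))) := by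
  classical
  set n := Ideal.absNorm (Ideal.span {a}) with hn
  have hn0 : n ≠ 0 := by
    rw [hn, Ne, Ideal.absNorm_eq_zero_iff, Ideal.span_singleton_eq_bot]; exact ha
  have hna : ∀ {ℓ : Nat.Primes} (ι : Emb ℓ), ‖(n : PadicAlgCl (ℓ : ℕ))‖ ≤ ‖embInt ι K a‖ := by
    intro ℓ ι
    obtain ⟨c, hc⟩ := Ideal.mem_span_singleton'.mp (Ideal.absNorm_mem (Ideal.span {a}))
    rw [← map_natCast (embInt ι K), ← hc, map_mul, norm_mul]
    exact mul_le_of_le_one_left (norm_nonneg _) (norm_embInt_le_one ι K c)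
  obtain ⟨m, hm0, hmT, hm1, hmn⟩ := exists_primeTo_part T' hn0
  refine ⟨Ideal.span {a} ⊔ Ideal.span {(m : 𝓞 K)}, ?_, ?_⟩
  · have hcop : m.Coprime M := by
      refine Nat.coprime_of_dvd fun q hq hqm hqM => ?_
      obtain ⟨ℓ, hℓ, rfl⟩ := hMT q hq hqM
      exact hmT ℓ (hTT' hℓ) hqm
    obtain ⟨u, v, huv⟩ := Nat.isCoprime_iff_coprime.mpr hcop
    rw [Ideal.isCoprime_iff_sup_eq, Ideal.eq_top_iff_one]
    have h1 := congrArg (fun z : ℤ => (z : 𝓞 K)) huv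
    simp only [Int.cast_add, Int.cast_mul, Int.cast_natCast, Int.cast_one] at h1
    rw [← h1]
    exact add_mem (Ideal.mem_sup_left (Ideal.mem_sup_right
      (Ideal.mul_mem_left _ _ (Ideal.mem_span_singleton_self _))))
      (Ideal.mem_sup_right (Ideal.mul_mem_left _ _ (Ideal.mem_span_singleton_self _)))
  set I := Ideal.span {a} ⊔ Ideal.span {(m : 𝓞 K)}
  have hI : I ≠ ⊥ := by
    intro h
    have h1 : a ∈ I := Ideal.mem_sup_left (Ideal.mem_span_singleton_self a)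
    rw [h, Submodule.mem_bot] at h1
    exact ha h1
  have habs : ∀ {ℓ : Nat.Primes} (ι : Emb ℓ),
      idealAbs ι I = max ‖embInt ι K a‖ ‖(m : PadicAlgCl (ℓ : ℕ))‖ := by
    intro ℓ ι
    refine le_antisymm ?_ (max_le
      (norm_le_idealAbs ι (Ideal.mem_sup_left (Ideal.mem_span_singleton_self a))) ?_)
    · suffices h : ∀ z ∈ I, ‖embInt ι K z‖ ≤ max ‖embInt ι K a‖ ‖(m : PadicAlgCl (ℓ : ℕ))‖ from
        h _ (pick_mem ι I).1
      intro z hz
      obtain ⟨u, hu, v, hv, rfl⟩ := Submodule.mem_sup.mp hz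
      obtain ⟨c, rfl⟩ := Ideal.mem_span_singleton'.mp hu
      obtain ⟨d, rfl⟩ := Ideal.mem_span_singleton'.mp hv
      rw [map_add, map_mul, map_mul, map_natCast]
      refine (IsUltrametricDist.norm_add_le_max _ _).trans (max_le_max ?_ ?_)
      · rw [norm_mul]; exact mul_le_of_le_one_left (norm_nonneg _) (norm_embInt_le_one ι K c)
      · rw [norm_mul]; exact mul_le_of_le_one_left (norm_nonneg _) (norm_embInt_le_one ι K d)
    · rw [← map_natCast (embInt ι K)]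
      exact norm_le_idealAbs ι (Ideal.mem_sup_right (Ideal.mem_span_singleton_self _))
  refine hφ.eq_of_norm_eq (idealIdele_mem _ _)
    (cut_mem_idelesOf _ (principal_mem_idelesOf (intUnit_mem a ha))) (fun ℓ hℓ ι => ?_)
    fun ℓ hℓ ι => ?_
  · rw [idealIdele_of_mem _ (Finset.mem_coe.mpr hℓ),
      cut_of_notMem _ (show ℓ ∉ (T' : Set Nat.Primes)ᶜ from fun h => h (hTT' hℓ))]
  · rw [norm_idealIdele hI (fun h => hℓ h), habs]
    by_cases hℓ' : ℓ ∈ T'
    · rw [cut_of_notMem _ (show ℓ ∉ (T' : Set Nat.Primes)ᶜ from fun h => h hℓ'), Units.val_one, norm_one, hm1 ℓ hℓ',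
        max_eq_right (norm_embInt_le_one ι K a)]
    · rw [cut_of_mem _ (show ℓ ∈ (T' : Set Nat.Primes)ᶜ from fun h => hℓ' h), principal_apply,
        hmn ℓ hℓ', max_eq_left (hna ι), embInt_apply]
      rfl

/-- A nonzero character is nonzero on the idele of some ideal prime to the modulus. -/
theorem exists_ideal_map_ne_zero (hφ : IsIdeleChar p K T φ) {ε : Nat.Primes → ℝ}
    (hε : ∀ ℓ, 0 < ε ℓ)
    (hroot : ∀ (T' : Finset Nat.Primes), ∀ f ∈ idelesOf K,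
      (∀ ℓ ∈ T', ∀ ι, ‖((f : Raw) ℓ ι : PadicAlgCl (ℓ : ℕ)) - 1‖ < ε ℓ) →
        (∀ ℓ ∉ T', ∀ ι, (f : Raw) ℓ ι = 1) → ∃ g ∈ idelesOf K, g ^ p = f)
    (hMT : ∀ q : ℕ, q.Prime → q ∣ M → ∃ ℓ ∈ T, (ℓ : ℕ) = q)
    {f : IdeleGroup} (hf : f ∈ idelesOf K) (hne : φ f ≠ 0) :
    ∃ I : Ideal (𝓞 K), IsCoprime I (modIdeal K M) ∧
      φ (idealIdele (T : Set Nat.Primes) I) ≠ 0 := by
  classical
  by_contra hcon
  push Not at hcon
  apply hne
  obtain ⟨A, hA⟩ := f.2.2.2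
  set T' := T ∪ A with hT'
  obtain ⟨x, hxK, hxf⟩ := exists_approx hf T' (fun ℓ => min (ε ℓ) 1) fun ℓ => lt_min (hε ℓ) one_pos
  obtain ⟨a, b, hb, hab⟩ := IsFractionRing.div_surjective (A := 𝓞 K) (⟨(x : Qb), hxK⟩ : K)
  have hb0 : b ≠ 0 := nonZeroDivisors.ne_zero hb
  have ha0 : a ≠ 0 := by
    rintro rfl
    rw [map_zero, zero_div] at hab
    exact x.ne_zero (congrArg Subtype.val hab).symm
  have hx : principal x * principal (intUnit b hb0) = principal (intUnit a ha0) := by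
    rw [← map_mul]
    refine congrArg principal (Units.ext ?_)
    show (x : Qb) * ((b : K) : Qb) = ((a : K) : Qb)
    have hbK : ((b : K) : Qb) ≠ 0 := (intUnit b hb0).ne_zero
    have h1 : (x : Qb) = ((a : K) : Qb) / ((b : K) : Qb) := by
      rw [← IntermediateField.coe_div]
      exact congrArg Subtype.val hab.symm
    rw [h1, div_mul_cancel₀ _ hbK]
  have hcutx : φ (cut (T' : Set Nat.Primes)ᶜ (principal x)) = 0 := by
    obtain ⟨Ia, hIa, hIa'⟩ := exists_ideal_of_int hφ hMT (Finset.subset_union_left : T ⊆ T') ha0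
    obtain ⟨Ib, hIb, hIb'⟩ := exists_ideal_of_int hφ hMT (Finset.subset_union_left : T ⊆ T') hb0
    rw [hcon Ia hIa, ← hx, cut_mul, hφ.map_mul' _
      (cut_mem_idelesOf _ (principal_mem_idelesOf hxK)) _
      (cut_mem_idelesOf _ (principal_mem_idelesOf (intUnit_mem b hb0))), ← hIb', hcon Ib hIb,
      add_zero] at hIa'
    exact hIa'.symm
  have hxmem := principal_mem_idelesOf hxK
  set h := f * (principal x)⁻¹ with hh
  have hhmem : h ∈ idelesOf K := mul_mem hf (inv_mem hxmem)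
  have hφh : φ h = φ f := by
    rw [hh, hφ.map_mul' f hf _ (inv_mem hxmem), hφ.map_inv' hxmem, hφ.map_principal _ hxK,
      neg_zero, add_zero]
  have hin : φ (cut (T' : Set Nat.Primes) h) = 0 := by
    obtain ⟨g, hg, hgp⟩ := hroot T' _ (cut_mem_idelesOf (T' : Set Nat.Primes) hhmem)
      (fun ℓ hℓ ι => by
        rw [cut_of_mem _ (Finset.mem_coe.mpr hℓ)]
        have hlt := hxf ℓ hℓ ι
        rw [hh, Subgroup.coe_mul, Raw.mul_apply, Units.val_mul, InvMemClass.coe_inv, Raw.inv_apply,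
          Units.val_inv_eq_inv_val, principal_apply]
        set u : PadicAlgCl (ℓ : ℕ) := ι (x : Qb) / ((f : Raw) ℓ ι : PadicAlgCl (ℓ : ℕ)) with hu
        have hu1 : ‖u‖ = 1 := by
          have h1 : ‖u - 1‖ < 1 := hlt.trans_le (min_le_right _ _)
          have := IsUltrametricDist.norm_add_eq_max_of_norm_ne_norm (x := u - 1)
            (y := (1 : PadicAlgCl (ℓ : ℕ))) (by rw [norm_one]; exact h1.ne)
          rwa [sub_add_cancel, norm_one, max_eq_right h1.le] at this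
        have e : ((f : Raw) ℓ ι : PadicAlgCl (ℓ : ℕ)) * (ι (x : Qb))⁻¹ = 1 / u := by
          rw [hu, one_div_div, div_eq_mul_inv]
        have hu0 : u ≠ 0 := norm_ne_zero_iff.mp (hu1.trans_ne one_ne_zero)
        rw [e, div_sub_one hu0, norm_div, hu1, div_one, norm_sub_rev]
        exact hlt.trans_le (min_le_left _ _))
      (fun ℓ hℓ ι => cut_of_notMem _ (fun h' => hℓ (Finset.mem_coe.mp h')) ι)
    rw [← hgp]
    exact hφ.map_pow_eq_zero hg
  have hout : φ (cut (T' : Set Nat.Primes)ᶜ h) = -φ (cut (T' : Set Nat.Primes)ᶜ (principal x)) := by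
    rw [← hφ.map_inv' (cut_mem_idelesOf _ hxmem)]
    refine hφ.eq_of_norm_eq (cut_mem_idelesOf _ hhmem) (inv_mem (cut_mem_idelesOf _ hxmem))
      (fun ℓ hℓ ι => ?_) fun ℓ hℓ ι => ?_
    · have hℓ' : ℓ ∉ (T' : Set Nat.Primes)ᶜ := fun h' =>
        h' (Finset.mem_coe.mpr (Finset.mem_union_left A hℓ))
      rw [InvMemClass.coe_inv, Raw.inv_apply, cut_of_notMem _ hℓ', cut_of_notMem _ hℓ', inv_one]
    · rw [InvMemClass.coe_inv, Raw.inv_apply]
      by_cases hℓ' : ℓ ∈ T'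
      · rw [cut_of_notMem _ (show ℓ ∉ (T' : Set Nat.Primes)ᶜ from fun h' => h' hℓ'),
          cut_of_notMem _ (show ℓ ∉ (T' : Set Nat.Primes)ᶜ from fun h' => h' hℓ'), inv_one]
      · have hℓc : ℓ ∈ (T' : Set Nat.Primes)ᶜ := fun h' => hℓ' h'
        rw [cut_of_mem _ hℓc, cut_of_mem _ hℓc, hh, Subgroup.coe_mul, Raw.mul_apply, Units.val_mul,
          norm_mul, InvMemClass.coe_inv, Raw.inv_apply,
          hA ℓ (fun h' => hℓ' (Finset.mem_union_right T h')) ι, one_mul]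
  have hsplit := hφ.map_mul' _ (cut_mem_idelesOf (T' : Set Nat.Primes) hhmem) _
    (cut_mem_idelesOf (T' : Set Nat.Primes)ᶜ hhmem)
  rw [cut_mul_cut_compl, hin, hout, hcutx, neg_zero, add_zero, hφh] at hsplit
  exact hsplit

end Fermat.Agent.ClassField.Idele.SecondIneq
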