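import Fermat.Agent.ClassField.Idele.LocalFields

/-!
# Weak approximation and `p`-th roots of ideles close to one
-/

set_option autoImplicit false

noncomputable section

open IntermediateField

namespace Fermat.Agent.ClassField.Idele.SecondIneq

local notation "Qb" => AlgebraicClosure ℚ
local notation "Γ" => (AlgebraicClosure ℚ ≃ₐ[ℚ] AlgebraicClosure ℚ)

/-- The image of a rational number in `ℚ_ℓ`, without any algebra structure. -/
abbrev padicCast (ℓ : Nat.Primes) (r : ℚ) : ℚ_[(ℓ : ℕ)] := (r : ℚ_[(ℓ : ℕ)])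

lemma norm_natCast_prime_self (ℓ : Nat.Primes) :
    ‖((ℓ : ℕ) : ℚ_[(ℓ : ℕ)])‖ < 1 := Padic.norm_p_lt_one

lemma norm_natCast_prime_other {ℓ ℓ' : Nat.Primes} (h : ℓ' ≠ ℓ) :
    ‖((ℓ' : ℕ) : ℚ_[(ℓ : ℕ)])‖ = 1 :=
  Padic.norm_natCast_eq_one_iff.mpr ((Nat.coprime_primes ℓ.2 ℓ'.2).mpr fun e => h (Subtype.ext e.symm))

/-- Simultaneous rational approximation at finitely many primes. -/
lemma exists_rat_near (T : Finset Nat.Primes) (c : ∀ ℓ : Nat.Primes, ℚ_[(ℓ : ℕ)])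
    (δ : Nat.Primes → ℝ) (hδ : ∀ ℓ, 0 < δ ℓ) :
    ∃ r : ℚ, ∀ ℓ ∈ T, ‖padicCast ℓ r - c ℓ‖ < δ ℓ := by
  classical
  choose a ha using fun ℓ : Nat.Primes => Padic.rat_dense (ℓ : ℕ) (c ℓ) (hδ ℓ)
  -- idempotents
  let A : Nat.Primes → ℕ := fun ℓ => ∏ ℓ' ∈ T.erase ℓ, (ℓ' : ℕ)
  let e : ℕ → Nat.Primes → ℚ := fun N ℓ => (A ℓ : ℚ) ^ N / ((A ℓ : ℚ) ^ N + ((ℓ : ℕ) : ℚ) ^ N)
  have hA1 : ∀ ℓ : Nat.Primes, ‖(A ℓ : ℚ_[(ℓ : ℕ)])‖ = 1 := fun ℓ => by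
    simp only [A, Nat.cast_prod, norm_prod]
    exact Finset.prod_eq_one fun ℓ' hℓ' => norm_natCast_prime_other (Finset.ne_of_mem_erase hℓ')
  have hA0 : ∀ ℓ ℓ' : Nat.Primes, ℓ ∈ T → ℓ ≠ ℓ' → ‖(A ℓ' : ℚ_[(ℓ : ℕ)])‖ < 1 := by
    intro ℓ ℓ' hℓ hne
    refine lt_of_le_of_lt ?_ (norm_natCast_prime_self ℓ)
    obtain ⟨m, hm⟩ : (ℓ : ℕ) ∣ A ℓ' :=
      Finset.dvd_prod_of_mem (fun x : Nat.Primes => (x : ℕ)) (Finset.mem_erase.mpr ⟨hne, hℓ⟩)
    rw [hm, Nat.cast_mul, norm_mul]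
    exact mul_le_of_le_one_right (norm_nonneg _) (IsUltrametricDist.norm_natCast_le_one _ m)
  -- the two estimates
  have hself : ∀ (ℓ : Nat.Primes) (N : ℕ), N ≠ 0 → ‖padicCast ℓ (e N ℓ) - 1‖ = ‖((ℓ : ℕ) : ℚ_[(ℓ : ℕ)])‖ ^ N := by
    intro ℓ N hN
    set u : ℚ_[(ℓ : ℕ)] := (A ℓ : ℚ_[(ℓ : ℕ)]) ^ N
    set v : ℚ_[(ℓ : ℕ)] := ((ℓ : ℕ) : ℚ_[(ℓ : ℕ)]) ^ N
    have hu : ‖u‖ = 1 := by simp [u, norm_pow, hA1]
    have hv : ‖v‖ < 1 := by
      simp only [v, norm_pow]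
      exact pow_lt_one₀ (norm_nonneg _) (norm_natCast_prime_self ℓ) hN
    have huv : ‖u + v‖ = 1 := by
      rw [IsUltrametricDist.norm_add_eq_max_of_norm_ne_norm (by rw [hu]; exact hv.ne'), hu,
        max_eq_left hv.le]
    have hne : u + v ≠ 0 := fun h => by rw [h, norm_zero] at huv; exact zero_ne_one huv
    have he : padicCast ℓ (e N ℓ) = u / (u + v) := by
      simp [padicCast, e, u, v]
    rw [he, div_sub_one hne, norm_div, huv, div_one, sub_add_cancel_left, norm_neg, norm_pow]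
  have hother : ∀ ℓ ℓ' : Nat.Primes, ℓ ∈ T → ℓ ≠ ℓ' → ∀ (N : ℕ), N ≠ 0 →
      ‖padicCast ℓ (e N ℓ')‖ = ‖(A ℓ' : ℚ_[(ℓ : ℕ)])‖ ^ N := by
    intro ℓ ℓ' hℓ hne N hN
    set u : ℚ_[(ℓ : ℕ)] := (A ℓ' : ℚ_[(ℓ : ℕ)]) ^ N
    set v : ℚ_[(ℓ : ℕ)] := ((ℓ' : ℕ) : ℚ_[(ℓ : ℕ)]) ^ N
    have hv : ‖v‖ = 1 := by simp [v, norm_pow, norm_natCast_prime_other hne.symm]
    have hu : ‖u‖ < 1 := by
      simp only [u, norm_pow]
      exact pow_lt_one₀ (norm_nonneg _) (hA0 ℓ ℓ' hℓ hne) hN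
    have huv : ‖u + v‖ = 1 := by
      rw [IsUltrametricDist.norm_add_eq_max_of_norm_ne_norm (by rw [hv]; exact hu.ne), hv,
        max_eq_right hu.le]
    have he : padicCast ℓ (e N ℓ') = u / (u + v) := by
      simp [padicCast, e, u, v]
    rw [he, norm_div, huv, div_one, norm_pow]
  -- choice of the exponent
  obtain ⟨N, hN0, hN⟩ : ∃ N : ℕ, N ≠ 0 ∧ ∀ ℓ ∈ T, ∀ ℓ' ∈ T,
      ‖padicCast ℓ (a ℓ')‖ * (if ℓ = ℓ' then ‖((ℓ : ℕ) : ℚ_[(ℓ : ℕ)])‖ else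
        ‖(A ℓ' : ℚ_[(ℓ : ℕ)])‖) ^ N < δ ℓ := by
    have : ∀ᶠ N : ℕ in Filter.atTop, N ≠ 0 ∧ ∀ ℓ ∈ T, ∀ ℓ' ∈ T,
        ‖padicCast ℓ (a ℓ')‖ * (if ℓ = ℓ' then ‖((ℓ : ℕ) : ℚ_[(ℓ : ℕ)])‖ else
          ‖(A ℓ' : ℚ_[(ℓ : ℕ)])‖) ^ N < δ ℓ := by
      refine (Filter.eventually_ne_atTop 0).and ((Filter.eventually_all_finset T).mpr fun ℓ hℓ =>
        (Filter.eventually_all_finset T).mpr fun ℓ' _ => ?_)
      have hlt : (if ℓ = ℓ' then ‖((ℓ : ℕ) : ℚ_[(ℓ : ℕ)])‖ else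
          ‖(A ℓ' : ℚ_[(ℓ : ℕ)])‖) < 1 := by
        split_ifs with h
        · exact norm_natCast_prime_self ℓ
        · exact hA0 ℓ ℓ' hℓ h
      have h0 : 0 ≤ (if ℓ = ℓ' then ‖((ℓ : ℕ) : ℚ_[(ℓ : ℕ)])‖ else
          ‖(A ℓ' : ℚ_[(ℓ : ℕ)])‖) := by split_ifs <;> exact norm_nonneg _
      have := (tendsto_pow_atTop_nhds_zero_of_lt_one h0 hlt).const_mul ‖padicCast ℓ (a ℓ')‖
      rw [mul_zero] at this
      exact this.eventually (gt_mem_nhds (hδ ℓ))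
    exact this.exists
  refine ⟨∑ ℓ' ∈ T, a ℓ' * e N ℓ', fun ℓ hℓ => ?_⟩
  have hsplit : padicCast ℓ (∑ ℓ' ∈ T, a ℓ' * e N ℓ') - c ℓ =
      (padicCast ℓ (a ℓ) - c ℓ) + (padicCast ℓ (a ℓ) * (padicCast ℓ (e N ℓ) - 1) +
        ∑ ℓ' ∈ T.erase ℓ, padicCast ℓ (a ℓ') * padicCast ℓ (e N ℓ')) := by
    rw [← Finset.add_sum_erase T _ hℓ]
    simp only [padicCast, Rat.cast_add, Rat.cast_sum, Rat.cast_mul]
    ring
  rw [hsplit]
  refine lt_of_le_of_lt (IsUltrametricDist.norm_add_le_max _ _) (max_lt ?_ ?_)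
  · rw [norm_sub_rev]; exact ha ℓ
  refine lt_of_le_of_lt (IsUltrametricDist.norm_add_le_max _ _) (max_lt ?_ ?_)
  · rw [norm_mul, hself ℓ N hN0]
    simpa using hN ℓ hℓ ℓ hℓ
  · rcases (T.erase ℓ).eq_empty_or_nonempty with h | h
    · simp [h, hδ ℓ]
    obtain ⟨i, hi, hle⟩ := IsUltrametricDist.exists_norm_finset_sum_le (T.erase ℓ)
      (fun ℓ' => padicCast ℓ (a ℓ') * padicCast ℓ (e N ℓ'))
    refine lt_of_le_of_lt hle ?_
    obtain ⟨hne, hiT⟩ := Finset.mem_erase.mp (hi h)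
    rw [norm_mul, hother ℓ i hℓ hne.symm N hN0]
    have := hN ℓ hℓ i hiT
    rwa [if_neg hne.symm] at this

/-- Embeddings of `k` which are restrictions of embeddings of the algebraic numbers. -/
def restrictEmb (k : IntermediateField ℚ Qb) {ℓ : Nat.Primes} (ι : Emb ℓ) :
    k →ₐ[ℚ] PadicAlgCl (ℓ : ℕ) := ι.comp k.val

lemma exists_restrictEmb_eq (k : IntermediateField ℚ Qb) {ℓ : Nat.Primes}
    (σ : k →ₐ[ℚ] PadicAlgCl (ℓ : ℕ)) : ∃ ι : Emb ℓ, restrictEmb k ι = σ := by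
  let _ : Algebra k (PadicAlgCl (ℓ : ℕ)) := σ.toRingHom.toAlgebra
  haveI : IsScalarTower ℚ k (PadicAlgCl (ℓ : ℕ)) :=
    IsScalarTower.of_algebraMap_eq fun x => (σ.commutes x).symm
  haveI : Algebra.IsAlgebraic k Qb := Algebra.IsAlgebraic.tower_top (K := ℚ) (L := k)
  let φ : Qb →ₐ[k] PadicAlgCl (ℓ : ℕ) := IsAlgClosed.lift
  exact ⟨φ.restrictScalars ℚ, AlgHom.ext fun x => φ.commutes x⟩

/-- Components at `ℓ` of an idele of `k` are `ℚ_ℓ`-combinations of the conjugates of a basis. -/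
lemma exists_coeff {k : IntermediateField ℚ Qb} [FiniteDimensional ℚ k] {f : IdeleGroup}
    (hf : f ∈ idelesOf k) (ℓ : Nat.Primes) {n : ℕ} (b : Module.Basis (Fin n) ℚ k) :
    ∃ c : Fin n → ℚ_[(ℓ : ℕ)], ∀ ι : Emb ℓ,
      ((f : Raw) ℓ ι : PadicAlgCl (ℓ : ℕ)) =
        ∑ i, algebraMap ℚ_[(ℓ : ℕ)] (PadicAlgCl (ℓ : ℕ)) (c i) * ι (b i : Qb) := by
  classical
  let E := k →ₐ[ℚ] PadicAlgCl (ℓ : ℕ)
  have hcard : Fintype.card E = Fintype.card (Fin n) := by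
    rw [AlgHom.card, Fintype.card_fin]
    exact Module.finrank_eq_card_basis b |>.trans (Fintype.card_fin n)
  let M : E → Fin n → PadicAlgCl (ℓ : ℕ) := fun σ i => σ (b i)
  have hli : LinearIndependent (PadicAlgCl (ℓ : ℕ)) M := by
    rw [Fintype.linearIndependent_iff]
    intro g hg σ
    have hinj : Function.Injective
        (fun σ : E => ((σ : k →+* PadicAlgCl (ℓ : ℕ)) : k →* PadicAlgCl (ℓ : ℕ))) :=
      fun a a' h => AlgHom.ext fun x => DFunLike.congr_fun h x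
    have hli' := (linearIndependent_monoidHom k (PadicAlgCl (ℓ : ℕ))).comp _ hinj
    refine Fintype.linearIndependent_iff.mp hli' g (funext fun x => ?_) σ
    simp only [Finset.sum_apply, Pi.smul_apply, Function.comp_apply, smul_eq_mul,
      MonoidHom.coe_coe, RingHom.coe_coe, Pi.zero_apply]
    conv_lhs => arg 2; ext τ; rw [← b.sum_repr x, map_sum, Finset.mul_sum]
    rw [Finset.sum_comm]
    refine Finset.sum_eq_zero fun i _ => ?_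
    have hi := congr_fun hg i
    simp only [Finset.sum_apply, Pi.smul_apply, smul_eq_mul, Pi.zero_apply, M] at hi
    calc ∑ τ : E, g τ * τ (b.repr x i • b i)
        = algebraMap ℚ (PadicAlgCl (ℓ : ℕ)) (b.repr x i) * ∑ τ : E, g τ * τ (b i) := by
          rw [Finset.mul_sum]
          refine Finset.sum_congr rfl fun τ _ => ?_
          rw [Algebra.smul_def, map_mul, AlgHom.commutes]; ring
      _ = 0 := by rw [hi, mul_zero]
  let e : E ≃ Fin n := Fintype.equivOfCardEq hcard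
  let Mm : Matrix (Fin n) (Fin n) (PadicAlgCl (ℓ : ℕ)) := Matrix.of fun j i => M (e.symm j) i
  have hU : IsUnit Mm := Matrix.linearIndependent_rows_iff_isUnit.mp (hli.comp _ e.symm.injective)
  have hb : Function.Bijective Mm.mulVec :=
    ⟨Matrix.mulVec_injective_iff_isUnit.mpr hU, Matrix.mulVec_surjective_iff_isUnit.mpr hU⟩
  choose ext hext using exists_restrictEmb_eq k (ℓ := ℓ)
  obtain ⟨c, hc⟩ := hb.2 fun j => ((f : Raw) ℓ (ext (e.symm j)) : PadicAlgCl (ℓ : ℕ))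
  have hval : ∀ ι : Emb ℓ,
      ((f : Raw) ℓ ι : PadicAlgCl (ℓ : ℕ)) = ∑ i, c i * ι (b i : Qb) := by
    intro ι
    have h1 : restrictEmb k (ext (restrictEmb k ι)) = restrictEmb k ι := hext _
    rw [apply_eq_of_eqOn hf (ι := ext (restrictEmb k ι)) fun x hx =>
      DFunLike.congr_fun h1 ⟨x, hx⟩]
    have := congr_fun hc (e (restrictEmb k ι))
    simp only [Equiv.symm_apply_apply] at this
    rw [← this]
    simp only [Mm, M, Matrix.mulVec, dotProduct, Matrix.of_apply, Equiv.symm_apply_apply]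
    exact Finset.sum_congr rfl fun i _ => mul_comm _ _
  have hfix : ∀ τ : LocalGal ℓ, (fun i => τ (c i)) = c := by
    intro τ
    apply hb.1
    funext j
    obtain ⟨ι, hι⟩ := exists_restrictEmb_eq k (e.symm j)
    have hι' : ∀ i, e.symm j (b i) = ι (b i : Qb) := fun i => by rw [← hι]; rfl
    set ι0 : Emb ℓ := localComp τ⁻¹ ι
    have h0 : localComp τ ι0 = ι := by
      rw [← localComp_mul, mul_inv_cancel, localComp_one]
    have h1 := f.2.1 ℓ τ ι0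
    rw [h0, hval ι, hval ι0, map_sum] at h1
    simp only [Mm, M, Matrix.mulVec, dotProduct, Matrix.of_apply, hι']
    rw [Finset.sum_congr rfl fun i _ => mul_comm (ι (b i : Qb)) (c i), h1]
    refine Finset.sum_congr rfl fun i _ => ?_
    rw [map_mul, ← localComp_apply, h0, mul_comm]
  have hQ : ∀ i, ∃ q : ℚ_[(ℓ : ℕ)], algebraMap ℚ_[(ℓ : ℕ)] (PadicAlgCl (ℓ : ℕ)) q = c i := by
    intro i
    have : c i ∈ (⊥ : IntermediateField ℚ_[(ℓ : ℕ)] (PadicAlgCl (ℓ : ℕ))) := by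
      rw [← InfiniteGalois.fixedField_fixingSubgroup (⊥ : IntermediateField ℚ_[(ℓ : ℕ)] _)]
      exact fun τ => congr_fun (hfix τ.1) i
    exact IntermediateField.mem_bot.mp this
  choose q hq using hQ
  exact ⟨q, fun ι => by simp only [hq, hval ι]⟩

/-- Weak approximation of ideles of `k` at finitely many primes. -/
theorem exists_approx {k : IntermediateField ℚ Qb} [FiniteDimensional ℚ k] {f : IdeleGroup}
    (hf : f ∈ idelesOf k) (T : Finset Nat.Primes) (ε : Nat.Primes → ℝ) (hε : ∀ ℓ, 0 < ε ℓ) :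
    ∃ x : Qbˣ, (x : Qb) ∈ k ∧
      ∀ ℓ ∈ T, ∀ ι : Emb ℓ, ‖ι (x : Qb) / ((f : Raw) ℓ ι : PadicAlgCl (ℓ : ℕ)) - 1‖ < ε ℓ := by
  classical
  rcases T.eq_empty_or_nonempty with rfl | ⟨ℓ₀, hℓ₀⟩
  · exact ⟨1, one_mem k, by simp⟩
  let b := Module.finBasis ℚ k
  choose c hc using fun ℓ : Nat.Primes => exists_coeff hf ℓ b
  have key : ∀ ℓ : Nat.Primes, ∃ δ : ℝ, 0 < δ ∧ ∀ c' : Fin (Module.finrank ℚ k) → ℚ_[(ℓ : ℕ)],
      (∀ i, ‖c' i - c ℓ i‖ < δ) → ∀ ι : Emb ℓ,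
        ‖(∑ i, algebraMap ℚ_[(ℓ : ℕ)] (PadicAlgCl (ℓ : ℕ)) (c' i) * ι (b i : Qb)) /
          ((f : Raw) ℓ ι : PadicAlgCl (ℓ : ℕ)) - 1‖ < min (ε ℓ) 1 := by
    intro ℓ
    let Φ : (k →ₐ[ℚ] PadicAlgCl (ℓ : ℕ)) → (Fin (Module.finrank ℚ k) → ℚ_[(ℓ : ℕ)]) →
        PadicAlgCl (ℓ : ℕ) := fun σ c' =>
      ∑ i, algebraMap ℚ_[(ℓ : ℕ)] (PadicAlgCl (ℓ : ℕ)) (c' i) * σ (b i)
    have hΦ : ∀ σ, Continuous (Φ σ) := fun σ =>
      continuous_finsetSum _ fun i _ =>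
        ((continuous_algebraMap _ _).comp (continuous_apply i)).mul continuous_const
    choose ext hext using exists_restrictEmb_eq k (ℓ := ℓ)
    let O : Set (Fin (Module.finrank ℚ k) → ℚ_[(ℓ : ℕ)]) :=
      ⋂ σ : k →ₐ[ℚ] PadicAlgCl (ℓ : ℕ),
        {c' | ‖Φ σ c' / ((f : Raw) ℓ (ext σ) : PadicAlgCl (ℓ : ℕ)) - 1‖ < min (ε ℓ) 1}
    have hO : IsOpen O := isOpen_iInter_of_finite fun σ =>
      isOpen_lt (((hΦ σ).div_const _).sub continuous_const).norm continuous_const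
    have hcO : c ℓ ∈ O := by
      refine Set.mem_iInter.mpr fun σ => ?_
      show ‖_ / _ - 1‖ < _
      have hbi : ∀ i, σ (b i) = ext σ (b i : Qb) := fun i => by
        conv_lhs => rw [← hext σ]
        rfl
      simp only [Φ, hbi, ← hc ℓ (ext σ), div_self (Units.ne_zero _), sub_self, norm_zero]
      exact lt_min (hε ℓ) one_pos
    obtain ⟨δ, hδ, hball⟩ := Metric.isOpen_iff.mp hO (c ℓ) hcO
    refine ⟨δ, hδ, fun c' hc' ι => ?_⟩
    have hmem : c' ∈ Metric.ball (c ℓ) δ := by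
      rw [Metric.mem_ball, dist_pi_lt_iff hδ]
      exact fun i => by rw [dist_eq_norm]; exact hc' i
    have h := Set.mem_iInter.mp (hball hmem) (restrictEmb k ι)
    have heq : ∀ x ∈ k, ext (restrictEmb k ι) x = ι x := fun x hx =>
      DFunLike.congr_fun (hext (restrictEmb k ι)) ⟨x, hx⟩
    rw [apply_eq_of_eqOn hf heq]
    exact h
  choose δ hδ hkey using key
  choose r hr using fun i => exists_rat_near T (fun ℓ => c ℓ i) δ hδ
  let x : k := ∑ i, r i • b i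
  have hx : ∀ ℓ ∈ T, ∀ ι : Emb ℓ,
      ‖ι (x : Qb) / ((f : Raw) ℓ ι : PadicAlgCl (ℓ : ℕ)) - 1‖ < min (ε ℓ) 1 := by
    intro ℓ hℓ ι
    have e : ι (x : Qb) = ∑ i, algebraMap ℚ_[(ℓ : ℕ)] (PadicAlgCl (ℓ : ℕ)) (padicCast ℓ (r i)) *
        ι (b i : Qb) := by
      simp only [x, AddSubmonoidClass.coe_finsetSum, map_sum]
      refine Finset.sum_congr rfl fun i _ => ?_
      rw [IntermediateField.coe_smul, Algebra.smul_def, map_mul, AlgHom.commutes, IsScalarTower.algebraMap_apply ℚ ℚ_[(ℓ : ℕ)] (PadicAlgCl (ℓ : ℕ)), eq_ratCast]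
    rw [e]
    exact hkey ℓ _ (fun i => hr i ℓ hℓ) ι
  obtain ⟨ι₀⟩ := nonempty_emb ℓ₀
  have hx0 : (x : Qb) ≠ 0 := by
    intro h
    have := hx ℓ₀ hℓ₀ ι₀
    rw [h, map_zero, zero_div, zero_sub, norm_neg, norm_one] at this
    exact absurd (lt_of_lt_of_le this (min_le_right _ _)) (lt_irrefl _)
  exact ⟨Units.mk0 _ hx0, x.2, fun ℓ hℓ ι => lt_of_lt_of_le (hx ℓ hℓ ι) (min_le_left _ _)⟩

/-- Elements close to one have a unique `p`-th root close to one. -/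
lemma exists_root_near (ℓ : Nat.Primes) {p : ℕ} (hp : p.Prime) :
    ∃ ε δ : ℝ, 0 < ε ∧ 0 < δ ∧ δ ≤ 1 ∧
      (∀ u : PadicAlgCl (ℓ : ℕ), ‖u - 1‖ < ε → ∃ y, y ^ p = u ∧ ‖y - 1‖ < δ) ∧
      ∀ y y' : PadicAlgCl (ℓ : ℕ), y ^ p = y' ^ p → ‖y - 1‖ < δ → ‖y' - 1‖ < δ → y = y' := by
  classical
  haveI : NeZero p := ⟨hp.ne_zero⟩
  haveI : CharZero (PadicAlgCl (ℓ : ℕ)) :=
    charZero_of_injective_algebraMap (algebraMap ℚ_[(ℓ : ℕ)] (PadicAlgCl (ℓ : ℕ))).injective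
  obtain ⟨ζ, hζ⟩ : ∃ ζ : PadicAlgCl (ℓ : ℕ), IsPrimitiveRoot ζ p :=
    HasEnoughRootsOfUnity.exists_primitiveRoot _ p
  let S : Finset ℕ := (Finset.range p).erase 0
  have hS : S.Nonempty := ⟨1, Finset.mem_erase.mpr ⟨one_ne_zero, Finset.mem_range.mpr hp.one_lt⟩⟩
  let δ : ℝ := min (S.inf' hS fun i => ‖ζ ^ i - 1‖) 1
  have hζ1 : ∀ i, ‖ζ ^ i‖ = 1 := fun i => by
    have : ‖ζ‖ = 1 := (pow_eq_one_iff_of_nonneg (norm_nonneg _) hp.ne_zero).mp (by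
      rw [← norm_pow, hζ.pow_eq_one, norm_one])
    rw [norm_pow, this, one_pow]
  have hδ : 0 < δ := by
    refine lt_min ?_ one_pos
    rw [Finset.lt_inf'_iff]
    intro i hi
    obtain ⟨hi0, hip⟩ := Finset.mem_erase.mp hi
    exact norm_pos_iff.mpr (sub_ne_zero.mpr
      (hζ.pow_ne_one_of_pos_of_lt hi0 (Finset.mem_range.mp hip)))
  refine ⟨δ ^ p, δ, pow_pos hδ p, hδ, min_le_right _ _, fun u hu => ?_, fun y y' h hy hy' => ?_⟩
  · obtain ⟨y, hy⟩ := IsAlgClosed.exists_pow_nat_eq u hp.pos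
    have hprod : ∏ z ∈ Polynomial.nthRootsFinset p (1 : PadicAlgCl (ℓ : ℕ)), (y - z) = y ^ p - 1 := by
      have := congrArg (Polynomial.eval y) (Polynomial.X_pow_sub_one_eq_prod hp.pos hζ)
      simpa [Polynomial.eval_prod] using this.symm
    have hlt : ∏ z ∈ Polynomial.nthRootsFinset p (1 : PadicAlgCl (ℓ : ℕ)), ‖y - z‖ < δ ^ p := by
      rw [← norm_prod, hprod, hy]; exact hu
    obtain ⟨z, hz, hzlt⟩ : ∃ z ∈ Polynomial.nthRootsFinset p (1 : PadicAlgCl (ℓ : ℕ)),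
        ‖y - z‖ < δ := by
      by_contra hcon
      push Not at hcon
      have := Finset.prod_le_prod (s := Polynomial.nthRootsFinset p (1 : PadicAlgCl (ℓ : ℕ)))
        (f := fun _ => δ) (g := fun z => ‖y - z‖) (fun _ _ => hδ.le) hcon
      rw [Finset.prod_const, hζ.card_nthRootsFinset] at this
      exact not_lt.mpr this hlt
    have hz' : z ^ p = 1 := (Polynomial.mem_nthRootsFinset hp.pos _).mp hz
    have hzn : ‖z‖ = 1 := (pow_eq_one_iff_of_nonneg (norm_nonneg _) hp.ne_zero).mp (by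
      rw [← norm_pow, hz', norm_one])
    have hz0 : z ≠ 0 := norm_ne_zero_iff.mp (hzn.trans_ne one_ne_zero)
    refine ⟨y / z, by rw [div_pow, hy, hz', div_one], ?_⟩
    rw [div_sub_one hz0, norm_div, hzn, div_one]
    exact hzlt
  · have hy'0 : y' ≠ 0 := by
      rintro rfl
      rw [zero_sub, norm_neg, norm_one] at hy'
      exact absurd hy' (not_lt.mpr (min_le_right _ _))
    have hy'1 : ‖y'‖ = 1 := by
      have hlt : ‖y' - 1‖ < 1 := hy'.trans_le (min_le_right _ _)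
      have := IsUltrametricDist.norm_add_eq_max_of_norm_ne_norm (x := y' - 1)
        (y := (1 : PadicAlgCl (ℓ : ℕ))) (by rw [norm_one]; exact hlt.ne)
      rwa [sub_add_cancel, norm_one, max_eq_right hlt.le] at this
    obtain ⟨i, hip, hi⟩ := hζ.eq_pow_of_pow_eq_one (show (y / y') ^ p = 1 by
      rw [div_pow, h, div_self (pow_ne_zero p hy'0)])
    rcases eq_or_ne i 0 with rfl | hi0
    · rw [pow_zero] at hi
      exact (div_eq_one_iff_eq hy'0).mp hi.symm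
    · exfalso
      have hmem : i ∈ S := Finset.mem_erase.mpr ⟨hi0, Finset.mem_range.mpr hip⟩
      have hle : δ ≤ ‖ζ ^ i - 1‖ := le_trans (min_le_left _ _) (Finset.inf'_le _ hmem)
      rw [hi, div_sub_one hy'0, norm_div, hy'1, div_one] at hle
      have : ‖y - y'‖ < δ := by
        have hd : y - y' = (y - 1) + -(y' - 1) := by ring
        rw [hd]
        exact lt_of_le_of_lt (IsUltrametricDist.norm_add_le_max _ _)
          (max_lt hy (by rwa [norm_neg]))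
      exact not_lt.mpr hle this

/-- An idele of `K` close to one at `T` and equal to one elsewhere is a `p`-th power. -/
theorem exists_near_one_pow {p : ℕ} (hp : p.Prime) :
    ∃ ε : Nat.Primes → ℝ, (∀ ℓ, 0 < ε ℓ) ∧ ∀ (T : Finset Nat.Primes) (K : IntermediateField ℚ Qb),
      FiniteDimensional ℚ K → ∀ f ∈ idelesOf K,
        (∀ ℓ ∈ T, ∀ ι, ‖((f : Raw) ℓ ι : PadicAlgCl (ℓ : ℕ)) - 1‖ < ε ℓ) →
        (∀ ℓ ∉ T, ∀ ι, (f : Raw) ℓ ι = 1) → ∃ g ∈ idelesOf K, g ^ p = f := by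
  classical
  choose ε δ hε hδ hδ1 hex huniq using fun ℓ => exists_root_near ℓ hp
  refine ⟨ε, hε, fun T K hK f hf hnear hout => ?_⟩
  have hroot : ∀ (ℓ : Nat.Primes) (ι : Emb ℓ), ∃ y : (PadicAlgCl (ℓ : ℕ))ˣ,
      y ^ p = (f : Raw) ℓ ι ∧ ‖(y : PadicAlgCl (ℓ : ℕ)) - 1‖ < δ ℓ := by
    intro ℓ ι
    by_cases hℓ : ℓ ∈ T
    · obtain ⟨y, hy, hy1⟩ := hex ℓ _ (hnear ℓ hℓ ι)
      have hy0 : y ≠ 0 := by
        rintro rfl
        rw [zero_pow hp.ne_zero] at hy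
        exact Units.ne_zero _ hy.symm
      exact ⟨Units.mk0 y hy0, Units.ext (by simpa using hy), hy1⟩
    · exact ⟨1, by rw [one_pow, hout ℓ hℓ ι], by simpa using hδ ℓ⟩
  choose y hy hy1 using hroot
  let g : Raw := fun ℓ ι => y ℓ ι
  have hval : ∀ (ℓ : Nat.Primes) (ι : Emb ℓ), (y ℓ ι : PadicAlgCl (ℓ : ℕ)) ^ p = ((f : Raw) ℓ ι : PadicAlgCl (ℓ : ℕ)) :=
    fun ℓ ι => by rw [← Units.val_pow_eq_pow_val, hy]
  have heqv : IsEquivariant g := by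
    intro ℓ τ ι
    refine huniq ℓ _ _ ?_ (hy1 _ _) ?_
    · rw [hval, f.2.1 ℓ τ ι, ← map_pow, hval]
    · have : τ (y ℓ ι : PadicAlgCl (ℓ : ℕ)) - 1 = τ ((y ℓ ι : PadicAlgCl (ℓ : ℕ)) - 1) := by
        rw [map_sub, map_one]
      rw [this, ← PadicAlgCl.spectralNorm_eq,
        ← spectralNorm_eq_of_equiv, PadicAlgCl.spectralNorm_eq]
      exact hy1 ℓ ι
  have hinv : ∀ σ ∈ K.fixingSubgroup, σ • g = g := by
    intro σ hσ
    refine Raw.ext fun ℓ ι => Units.ext (huniq ℓ _ _ ?_ (hy1 _ _) (hy1 _ _))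
    rw [Raw.smul_apply, hval, hval]
    exact congrArg (fun z : IdeleGroup => ((z : Raw) ℓ ι : PadicAlgCl (ℓ : ℕ))) (hf σ hσ)
  have hsupp : HasFiniteSupport g := ⟨∅, fun ℓ _ ι => by
    have h := (hy1 ℓ ι).trans_le (hδ1 ℓ)
    have := IsUltrametricDist.norm_add_eq_max_of_norm_ne_norm
      (x := (y ℓ ι : PadicAlgCl (ℓ : ℕ)) - 1) (y := (1 : PadicAlgCl (ℓ : ℕ)))
      (by rw [norm_one]; exact h.ne)
    rwa [sub_add_cancel, norm_one, max_eq_right h.le] at this⟩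
  refine ⟨⟨g, heqv, ⟨K, hK, hinv⟩, hsupp⟩, fun σ hσ => Subtype.ext (hinv σ hσ), ?_⟩
  refine Subtype.ext (Raw.ext fun ℓ ι => ?_)
  rw [SubmonoidClass.coe_pow]
  exact hy ℓ ι

end Fermat.Agent.ClassField.Idele.SecondIneq
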